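/-
S56 block (B) = BRIDGES between the models used by the blocks of S56.
(B0) the adjoint representation `ad⁰ r` on the trace zero matrices, as a representation over `k` and over `ZMod p`
(the coefficient module of the blocks (GW), (G1), (G2) in the relative model of `PT/Coh`).
-/
import Fermat.Agent.S56.C.LocalDefs
import Fermat.Agent.S56.C.LiftForm
import Fermat.Agent.S56.G2.Statement

set_option autoImplicit false

open Matrix Module

noncomputable section

namespace Fermat.Agent.S56.B

open Fermat.Agent.S53 (G M2)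
open Fermat.Agent.S56.C (ad rm IsCoc IsCob)

variable {k : Type} [Field k]

/-- The trace zero `2 × 2` matrices. -/
def Ad0 (k : Type) [Field k] : Submodule k (M2 k) := LinearMap.ker (Matrix.traceLinearMap (Fin 2) k k)

theorem mem_Ad0 {X : M2 k} : X ∈ Ad0 k ↔ X.trace = 0 := by
  rw [Ad0, LinearMap.mem_ker, Matrix.traceLinearMap_apply]

theorem trace_ad (g : GL (Fin 2) k) (X : M2 k) : (ad g X).trace = X.trace := by
  rw [ad, Matrix.trace_mul_comm, ← Matrix.mul_assoc, ← Units.val_mul, inv_mul_cancel, Units.val_one,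
    Matrix.one_mul]

theorem ad_one (X : M2 k) : ad (1 : GL (Fin 2) k) X = X := by simp [ad]

theorem ad_mul (g h : GL (Fin 2) k) (X : M2 k) : ad (g * h) X = ad g (ad h X) := by
  simp only [ad, Units.val_mul, _root_.mul_inv_rev, Matrix.mul_assoc]

theorem ad_add (g : GL (Fin 2) k) (X Y : M2 k) : ad g (X + Y) = ad g X + ad g Y := by
  simp only [ad, Matrix.mul_add, Matrix.add_mul]

theorem ad_sub (g : GL (Fin 2) k) (X Y : M2 k) : ad g (X - Y) = ad g X - ad g Y := by
  simp only [ad, Matrix.mul_sub, Matrix.sub_mul]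

theorem ad_smul (g : GL (Fin 2) k) (a : k) (X : M2 k) : ad g (a • X) = a • ad g X := by
  simp only [ad, Matrix.mul_smul, Matrix.smul_mul]

theorem ad_zero (g : GL (Fin 2) k) : ad g (0 : M2 k) = 0 := by simp [ad]

/-- `ad⁰ r` as a `k`-linear representation. -/
def adRep (r : G →* GL (Fin 2) k) : Representation k G (Ad0 k) where
  toFun g :=
    { toFun := fun X => ⟨ad (r g) X, by rw [mem_Ad0, trace_ad]; exact mem_Ad0.1 X.2⟩
      map_add' := fun X Y => Subtype.ext (ad_add _ _ _)
      map_smul' := fun a X => Subtype.ext (ad_smul _ _ _) }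
  map_one' := by
    ext X : 2
    simp [ad_one]
  map_mul' g h := by
    ext X : 2
    simp [ad_mul]

@[simp] theorem coe_adRep (r : G →* GL (Fin 2) k) (g : G) (X : Ad0 k) :
    ((adRep r g X : Ad0 k) : M2 k) = ad (r g) X := rfl

variable (p : ℕ) [Algebra (ZMod p) k]

/-- `ad⁰ r` as a representation over `ZMod p`. -/
def adFp (r : G →* GL (Fin 2) k) : Representation (ZMod p) G (Ad0 k) where
  toFun g := (adRep r g).restrictScalars (ZMod p)
  map_one' := by
    ext X : 2
    simp
  map_mul' g h := by
    ext X : 2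
    simp

@[simp] theorem coe_adFp (r : G →* GL (Fin 2) k) (g : G) (X : Ad0 k) :
    ((adFp p r g X : Ad0 k) : M2 k) = ad (r g) X := rfl

theorem adFp_apply (r : G →* GL (Fin 2) k) (g : G) (X : Ad0 k) : adFp p r g X = adRep r g X := rfl

instance finite_Ad0 [Finite k] : Finite (Ad0 k) := Subtype.finite

instance moduleFinite_Ad0 [Finite k] : Module.Finite (ZMod p) (Ad0 k) := Module.Finite.of_finite

end Fermat.Agent.S56.B
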