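/-
S56 block (B), (B2-level): levels of `LS S` from normal open subgroups containing the inertia groups outside `S`.
-/
import Fermat.Agent.S56.B.Ad0
import Fermat.Agent.PT.Bridge.GalLevels

set_option autoImplicit false

open Matrix Module

noncomputable section

namespace Fermat.Agent.S56.B

open Fermat.Agent.S53 (G M2)
open Fermat.Agent.S56.C (ad rm IsCoc IsCob liftMat)
open Fermat.Agent.PT

/-- The primes of a finite set of natural numbers. -/
def toPrimes (S : Finset ℕ) : Finset Nat.Primes := S.subtype Nat.Prime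

@[simp] theorem mem_toPrimes {S : Finset ℕ} {q : Nat.Primes} : q ∈ toPrimes S ↔ (q : ℕ) ∈ S :=
  Finset.mem_subtype

/-- A normal subgroup containing a finite level and all the inertia groups outside `S` is a level of `LS S`. -/
theorem mem_LS_of_normal (S : Finset Nat.Primes) (K : Subgroup GQ) (hn : K.Normal)
    (hsm : ∃ F : IntermediateField ℚ Qbar, FiniteDimensional ℚ F ∧ ∀ s : GQ, (∀ x ∈ F, s x = x) → s ∈ K)
    (hur : ∀ q : Nat.Primes, q ∉ S → ∀ A : ValuationSubring Qbar, A.LiesOverPrime (q : ℕ) →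
      ∀ g ∈ A.inertiaSubgroupIn ℚ, g ∈ K) : K ∈ LS S := by
  have hgal : IsGalois ℚ (AlgebraicClosure ℚ) := Levels_isGalois_Qbar inferInstance
  obtain ⟨F1, hF1, h1⟩ := hsm
  have hle : F1.fixingSubgroup ≤ K := by
    intro s hs
    rw [IntermediateField.mem_fixingSubgroup_iff] at hs
    exact h1 s hs
  have hopen : IsOpen (K : Set GQ) :=
    Subgroup.isOpen_mono hle (IntermediateField.fixingSubgroup_isOpen F1)
  have hclosed : IsClosed (K : Set GQ) := Subgroup.isClosed_of_isOpen _ hopen
  have hfix : (IntermediateField.fixedField K).fixingSubgroup = K :=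
    InfiniteGalois.fixingSubgroup_fixedField ⟨K, hclosed⟩
  have hFle : IntermediateField.fixedField K ≤ F1 := by
    rw [← InfiniteGalois.fixedField_fixingSubgroup F1]
    exact IntermediateField.fixedField_antitone hle
  refine ⟨hn, IntermediateField.fixedField K, ⟨?_, fun q hq A hA g hg => ?_⟩, hfix.symm⟩
  · exact FiniteDimensional.of_injective (IntermediateField.inclusion hFle).toLinearMap
      (IntermediateField.inclusion_injective hFle)
  · rw [hfix]
    exact hur q hq A hA g hg

/-- Same for `Lall`. -/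
theorem mem_Lall_of_normal (K : Subgroup GQ) (hn : K.Normal)
    (hsm : ∃ F : IntermediateField ℚ Qbar, FiniteDimensional ℚ F ∧ ∀ s : GQ, (∀ x ∈ F, s x = x) → s ∈ K) :
    K ∈ Lall := by
  have hgal : IsGalois ℚ (AlgebraicClosure ℚ) := Levels_isGalois_Qbar inferInstance
  obtain ⟨F1, hF1, h1⟩ := hsm
  have hle : F1.fixingSubgroup ≤ K := by
    intro s hs
    rw [IntermediateField.mem_fixingSubgroup_iff] at hs
    exact h1 s hs
  have hopen : IsOpen (K : Set GQ) :=
    Subgroup.isOpen_mono hle (IntermediateField.fixingSubgroup_isOpen F1)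
  have hclosed : IsClosed (K : Set GQ) := Subgroup.isClosed_of_isOpen _ hopen
  have hfix : (IntermediateField.fixedField K).fixingSubgroup = K :=
    InfiniteGalois.fixingSubgroup_fixedField ⟨K, hclosed⟩
  have hFle : IntermediateField.fixedField K ≤ F1 := by
    rw [← InfiniteGalois.fixedField_fixingSubgroup F1]
    exact IntermediateField.fixedField_antitone hle
  refine ⟨hn, IntermediateField.fixedField K, ?_, hfix.symm⟩
  exact FiniteDimensional.of_injective (IntermediateField.inclusion hFle).toLinearMap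
    (IntermediateField.inclusion_injective hFle)

section rc

variable {k : Type} [Field k] (r : G →* GL (Fin 2) k)

/-- `r` is trivial on an open subgroup. -/
def RSmooth : Prop :=
  ∃ F : IntermediateField ℚ Qbar, FiniteDimensional ℚ F ∧ ∀ s : G, (∀ x ∈ F, s x = x) → r s = 1

/-- `r` is unramified at `q`. -/
def RUnramAt (q : ℕ) : Prop :=
  ∀ P : ValuationSubring Qbar, P.LiesOverPrime q → ∀ σ ∈ P.inertiaSubgroupIn ℚ, r σ = 1

/-- the kernel of `(1 + ε c) r`. -/
def kerRC (c : G → M2 k) (hc : IsCoc r c) : Subgroup G where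
  carrier := {g | r g = 1 ∧ c g = 0}
  one_mem' := ⟨map_one r, C.IsCoc.map_one r hc⟩
  mul_mem' := by
    rintro a b ⟨ha, ha'⟩ ⟨hb, hb'⟩
    exact ⟨by rw [map_mul, ha, hb, one_mul], by rw [hc a b, ha', hb', ad_zero, add_zero]⟩
  inv_mem' := by
    rintro a ⟨ha, ha'⟩
    refine ⟨by rw [map_inv, ha, inv_one], ?_⟩
    have h := hc a a⁻¹
    rw [mul_inv_cancel, C.IsCoc.map_one r hc, ha', ha, ad_one, zero_add] at h
    exact h.symm

theorem mem_kerRC {c : G → M2 k} {hc : IsCoc r c} {g : G} : g ∈ kerRC r c hc ↔ r g = 1 ∧ c g = 0 :=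
  Iff.rfl

theorem normal_kerRC (c : G → M2 k) (hc : IsCoc r c) : (kerRC r c hc).Normal := by
  refine ⟨fun n hn g => ?_⟩
  obtain ⟨h1, h2⟩ := hn
  refine ⟨by rw [map_mul, map_mul, h1, mul_one, ← map_mul, mul_inv_cancel, map_one], ?_⟩
  have h3 := hc g g⁻¹
  rw [mul_inv_cancel, C.IsCoc.map_one r hc] at h3
  rw [hc (g * n) g⁻¹, hc g n, h2, ad_zero, add_zero, map_mul, h1, mul_one, ← h3]

/-- The level of a smooth cocycle unramified outside `S`. -/
theorem kerRC_mem_LS (S : Finset Nat.Primes) (hr : RSmooth r)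
    (hur : ∀ q : Nat.Primes, q ∉ S → RUnramAt r q) {c : G → M2 k} (hc : IsCoc r c)
    (hs : C.Smooth c) (hcur : ∀ q : Nat.Primes, q ∉ S → C.UnramAt c q) : kerRC r c hc ∈ LS S := by
  refine mem_LS_of_normal S _ (normal_kerRC r c hc) ?_ ?_
  · obtain ⟨F, hF, h⟩ := hr
    obtain ⟨F', hF', h'⟩ := hs
    refine ⟨F ⊔ F', IntermediateField.finiteDimensional_sup F F', fun s hs => ⟨?_, ?_⟩⟩
    · exact h s fun x hx => hs x ((le_sup_left : F ≤ F ⊔ F') hx)
    · exact h' s fun x hx => hs x ((le_sup_right : F' ≤ F ⊔ F') hx)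
  · intro q hq A hA g hg
    exact ⟨hur q hq A hA g hg, hcur q hq A hA g hg⟩

/-- The level of `r`. -/
theorem ker_mem_LS (S : Finset Nat.Primes) (hr : RSmooth r)
    (hur : ∀ q : Nat.Primes, q ∉ S → RUnramAt r q) : r.ker ∈ LS S := by
  refine mem_LS_of_normal S _ inferInstance ?_ ?_
  · obtain ⟨F, hF, h⟩ := hr
    exact ⟨F, hF, fun s hs => h s hs⟩
  · intro q hq A hA g hg
    exact hur q hq A hA g hg

end rc

end Fermat.Agent.S56.B
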