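/-
S56 block (B), (B2): global dictionary.  A smooth trace zero cocycle `c : G → M₂(k)` unramified outside `S` gives
`zOf p r c ∈ Z¹(LS S, ⊤, ad⁰ r)` (relative model of `PT/Coh`), and cohomologous in the relative model implies `IsCob`.
-/
import Fermat.Agent.S56.B.Level
import Fermat.Agent.PT.Coh.DictV

set_option autoImplicit false

open Matrix Module

noncomputable section

namespace Fermat.Agent.S56.B

open Fermat.Agent.S53 (G M2)
open Fermat.Agent.S56.C (ad rm IsCoc IsCob liftMat)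
open Fermat.Agent.PT

variable {k : Type} [Field k] (p : ℕ) [Algebra (ZMod p) k] (r : G →* GL (Fin 2) k)

/-- `ad⁰ r` is smooth for `LS S` if `r` is smooth and unramified outside `S`. -/
theorem isSmoothRep_adFp (S : Finset Nat.Primes) (hr : RSmooth r)
    (hur : ∀ q : Nat.Primes, q ∉ S → RUnramAt r q) : IsSmoothRep (LS S) (adFp p r) := by
  intro a
  refine ⟨r.ker, ker_mem_LS r S hr hur, fun u hu => ?_⟩
  apply Subtype.ext
  rw [coe_adFp, MonoidHom.mem_ker.1 hu, ad_one]

theorem isSmoothRep_adFp_Lall (hr : RSmooth r) : IsSmoothRep Lall (adFp p r) := by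
  intro a
  refine ⟨r.ker, mem_Lall_of_normal _ inferInstance ?_, fun u hu => ?_⟩
  · obtain ⟨F, hF, h⟩ := hr
    exact ⟨F, hF, fun s hs => h s hs⟩
  · apply Subtype.ext
    rw [coe_adFp, MonoidHom.mem_ker.1 hu, ad_one]

/-- a trace zero function, with values in `Ad0 k`. -/
def toAd0 (c : G → M2 k) (h : C.TraceZero c) : G → Ad0 k := fun g => ⟨c g, mem_Ad0.2 (h g)⟩

@[simp] theorem coe_toAd0 (c : G → M2 k) (h : C.TraceZero c) (g : G) : (toAd0 c h g : M2 k) = c g := rfl

/-- the homogeneous cochain of `c`. -/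
def zOf (c : G → M2 k) (h : C.TraceZero c) : G → G → Ad0 k := ofInh1 (adFp p r) (toAd0 c h)

@[simp] theorem zOf_one (c : G → M2 k) (h : C.TraceZero c) (g : G) :
    (zOf p r c h 1 g : M2 k) = c g := by
  simp [zOf]

/-- the inhomogeneous matrix valued function of a homogeneous cochain. -/
def inhOf (z : G → G → Ad0 k) : G → M2 k := fun g => (z 1 g : M2 k)

@[simp] theorem inhOf_apply (z : G → G → Ad0 k) (g : G) : inhOf z g = (z 1 g : M2 k) := rfl

theorem inhOf_zOf (c : G → M2 k) (h : C.TraceZero c) : inhOf (zOf p r c h) = c :=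
  funext fun g => zOf_one p r c h g

theorem traceZero_inhOf (z : G → G → Ad0 k) : C.TraceZero (inhOf z) := fun g => mem_Ad0.1 (z 1 g).2

theorem toAd0_mem_Z1 (S : Finset Nat.Primes) (hr : RSmooth r)
    (hur : ∀ q : Nat.Primes, q ∉ S → RUnramAt r q) {c : G → M2 k} (hc : IsCoc r c)
    (hs : C.Smooth c) (ht : C.TraceZero c) (hcur : ∀ q : Nat.Primes, q ∉ S → C.UnramAt c q) :
    toAd0 c ht ∈ Inh.Z1 (LS S) (adFp p r) := by
  rw [Inh.mem_Z1]
  refine ⟨⟨kerRC r c hc, kerRC_mem_LS r S hr hur hc hs hcur, fun g s hs' => ?_⟩, fun g h => ?_⟩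
  · apply Subtype.ext
    rw [coe_toAd0, coe_toAd0, hc g s, hs'.2, ad_zero, add_zero]
  · apply Subtype.ext
    rw [coe_toAd0, hc g h, add_comm]
    rfl

/-- (B2) the cocycle of the relative model attached to a Selmer type cocycle. -/
theorem zOf_mem_Z1 (S : Finset Nat.Primes) (hr : RSmooth r)
    (hur : ∀ q : Nat.Primes, q ∉ S → RUnramAt r q) {c : G → M2 k} (hc : IsCoc r c)
    (hs : C.Smooth c) (ht : C.TraceZero c) (hcur : ∀ q : Nat.Primes, q ∉ S → C.UnramAt c q) :
    zOf p r c ht ∈ Z1 (LS S) ⊤ (adFp p r) :=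
  ofInh1_mem_Z1 (isSmoothRep_adFp p r S hr hur) (toAd0_mem_Z1 p r S hr hur hc hs ht hcur)

/-- (B2) cohomologous in the relative model ⟹ cohomologous as functions. -/
theorem isCob_of_sub_mem_B1 (L : LevelSystem G) {c : G → M2 k} (ht : C.TraceZero c)
    {z : G → G → Ad0 k} (h : zOf p r c ht - z ∈ B1 L ⊤ (adFp p r)) : IsCob r (c - inhOf z) := by
  obtain ⟨a, ha⟩ := Inh.mem_B1.1 (toInh1_mem_B1 h)
  refine ⟨a, fun g => ?_⟩
  have h1 := congrArg (Subtype.val) (ha g)
  simp only [toInh1_apply, Pi.sub_apply, Submodule.coe_sub, zOf_one, coe_adFp] at h1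
  exact h1

/-- the inhomogeneous function of a cocycle of the relative model is a cocycle. -/
theorem isCoc_inhOf (L : LevelSystem G) {z : G → G → Ad0 k} (hz : z ∈ Z1 L ⊤ (adFp p r)) :
    IsCoc r (inhOf z) := by
  intro g h
  have h1 := congrArg Subtype.val (inh1_cocycle hz g (Subgroup.mem_top g) h)
  simp only [Submodule.coe_add, coe_adFp] at h1
  rw [inhOf_apply, h1, add_comm]
  rfl

/-- coboundaries. -/
theorem isCob_inhOf (L : LevelSystem G) {z : G → G → Ad0 k} (hz : z ∈ B1 L ⊤ (adFp p r)) :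
    IsCob r (inhOf z) := by
  obtain ⟨a, ha⟩ := Inh.mem_B1.1 (toInh1_mem_B1 hz)
  refine ⟨a, fun g => ?_⟩
  have h1 := congrArg (Subtype.val) (ha g)
  simp only [toInh1_apply, Submodule.coe_sub, coe_adFp] at h1
  exact h1

end Fermat.Agent.S56.B
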