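/-
S56 block (B), (B1a): the representation `ad⁰ r ⊗ det r = ad⁰ r (1)` over `ZMod p` and the perfect equivariant pairing
`β : ad⁰ r × ad⁰ r (1) → F_p(1)`, `β X Y = Tr_{k/F_p} (tr (X Y))`  (input `ρ, σ, β` of `GW_main`).
-/
import Fermat.Agent.S56.B.Global
import Fermat.Agent.S56.T.Defs
import Fermat.Agent.S56.GW.Sel

set_option autoImplicit false

open Matrix Module ExtCitation

noncomputable section

namespace Fermat.Agent.S56.B

open Fermat.Agent.S53 (G M2)
open Fermat.Agent.S56.C (ad rm IsCoc IsCob liftMat)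
open Fermat.Agent.PT

variable {k : Type} [Field k]

theorem act_eq_smul_ad (g : GL (Fin 2) k) (X : M2 k) :
    T.act g X = ((Matrix.GeneralLinearGroup.det g : kˣ) : k) • ad g X := rfl

/-- `ad⁰ r ⊗ det r` as a `k`-linear representation. -/
def adDetRep (r : G →* GL (Fin 2) k) : Representation k G (Ad0 k) where
  toFun g :=
    { toFun := fun X => ⟨T.act (r g) X, by
        rw [mem_Ad0, T.trace_act, mem_Ad0.1 X.2, mul_zero]⟩
      map_add' := fun X Y => Subtype.ext (T.act_add _ _ _)
      map_smul' := fun a X => Subtype.ext (T.act_smul _ _ _) }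
  map_one' := by
    ext X : 2
    simp
  map_mul' g h := by
    ext X : 2
    simp [T.act_mul]

@[simp] theorem coe_adDetRep (r : G →* GL (Fin 2) k) (g : G) (X : Ad0 k) :
    ((adDetRep r g X : Ad0 k) : M2 k) = T.act (r g) X := rfl

variable (p : ℕ) [Fact p.Prime] [Algebra (ZMod p) k]

/-- `ad⁰ r ⊗ det r` as a representation over `ZMod p`. -/
def adDetFp (r : G →* GL (Fin 2) k) : Representation (ZMod p) G (Ad0 k) where
  toFun g := (adDetRep r g).restrictScalars (ZMod p)
  map_one' := by
    ext X : 2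
    simp
  map_mul' g h := by
    ext X : 2
    simp

@[simp] theorem coe_adDetFp (r : G →* GL (Fin 2) k) (g : G) (X : Ad0 k) :
    ((adDetFp p r g X : Ad0 k) : M2 k) = T.act (r g) X := rfl

/-- `det r` is the cyclotomic character mod `p`. -/
def DetCyc (r : G →* GL (Fin 2) k) : Prop :=
  ∀ g : G, ((Matrix.GeneralLinearGroup.det (r g) : kˣ) : k) =
    algebraMap (ZMod p) k ((cycloChar p g : (ZMod p)ˣ) : ZMod p)

/-- The pairing `β X Y = Tr_{k/F_p} (tr (X Y))`. -/
def beta : Ad0 k →ₗ[ZMod p] Ad0 k →ₗ[ZMod p] ZMod p :=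
  LinearMap.mk₂ (ZMod p) (fun X Y => Algebra.trace (ZMod p) k ((X : M2 k) * (Y : M2 k)).trace)
    (fun X X' Y => by simp [Matrix.add_mul])
    (fun a X Y => by simp)
    (fun X Y Y' => by simp [Matrix.mul_add])
    (fun a X Y => by simp)

@[simp] theorem beta_apply (X Y : Ad0 k) :
    beta p X Y = Algebra.trace (ZMod p) k ((X : M2 k) * (Y : M2 k)).trace := rfl

variable (r : G →* GL (Fin 2) k)

/-- equivariance: `tr (g X g⁻¹ · det g · g Y g⁻¹) = det g · tr (X Y)` and `det g = χ(g) ∈ F_p`
(`Algebra.trace` is `ZMod p`-linear: `map_smul`, `Algebra.smul_def`). -/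
theorem isPairingOn_beta (hdet : DetCyc p r) :
    GW.IsPairingOn ⊤ (adFp p r) (adDetFp p r) (cycRep p) (beta p) := by
  intro g _ X Y
  rw [beta_apply, beta_apply, coe_adFp, coe_adDetFp, act_eq_smul_ad, cycRep_apply, hdet g]
  have h1 : (ad (r g) (X : M2 k) * ad (r g) (Y : M2 k)).trace = ((X : M2 k) * (Y : M2 k)).trace := by
    have h2 : ad (r g) (X : M2 k) * ad (r g) (Y : M2 k) = ad (r g) ((X : M2 k) * (Y : M2 k)) := by
      simp only [ad, Matrix.mul_assoc]
      congr 2
      rw [← Matrix.mul_assoc, ← Matrix.mul_assoc, ← Units.val_mul, inv_mul_cancel, Units.val_one,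
        Matrix.one_mul]
    rw [h2, trace_ad]
  rw [Matrix.mul_smul, Matrix.trace_smul, h1, smul_eq_mul, ← Algebra.smul_def, map_smul,
    smul_eq_mul]

/-- nondegeneracy over `k`: a trace zero matrix `X` with `tr (X Y) = 0` for all trace zero `Y` is `0` (`2 ≠ 0`;
test with `Y = E₁₂, E₂₁, diag(1,-1)`). -/
theorem eq_zero_of_trace_mul (h2 : (2 : k) ≠ 0) {X : M2 k} (hX : X.trace = 0)
    (h : ∀ Y : M2 k, Y.trace = 0 → (X * Y).trace = 0) : X = 0 := by
  have e1 := h !![0, 1; 0, 0] (by simp [Matrix.trace_fin_two])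
  have e2 := h !![0, 0; 1, 0] (by simp [Matrix.trace_fin_two])
  have e3 := h !![1, 0; 0, -1] (by simp [Matrix.trace_fin_two])
  simp only [Matrix.trace_fin_two, Matrix.mul_apply, Fin.sum_univ_two, Matrix.of_apply,
    Matrix.cons_val', Matrix.cons_val_zero, Matrix.cons_val_one, Matrix.cons_val_fin_one,
    mul_zero, mul_one, zero_add, add_zero, mul_neg] at e1 e2 e3
  rw [Matrix.trace_fin_two] at hX
  have h00 : X 0 0 = 0 := by
    have : (2 : k) * X 0 0 = 0 := by linear_combination e3 + hX
    exact (mul_eq_zero.1 this).resolve_left h2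
  have h11 : X 1 1 = 0 := by rw [h00, zero_add] at hX; exact hX
  ext i j
  fin_cases i <;> fin_cases j
  · exact h00
  · exact e2
  · exact e1
  · exact h11

/-- `β` is injective: if `Tr (tr (X Y)) = 0` for all `Y` then (replace `Y` by `a • Y`) `Tr (a · tr (X Y)) = 0` for all `a : k`,
so `tr (X Y) = 0` (`Algebra.traceForm_nondegenerate (ZMod p) k`; `k/F_p` is separable: finite fields are perfect),
then `eq_zero_of_trace_mul`.  Bijective by dimensions (`Subspace.dual_finrank_eq`,
`LinearMap.injective_iff_surjective_of_finrank_eq_finrank`). -/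
theorem beta_bijective [Finite k] (hp2 : p ≠ 2) : Function.Bijective (beta (k := k) p) := by
  have hchar : CharP k p := by
    have : CharP (ZMod p) p := ZMod.charP p
    exact charP_of_injective_algebraMap (algebraMap (ZMod p) k).injective p
  have h2 : (2 : k) ≠ 0 := by
    intro h
    have h3 : ((2 : ℕ) : k) = 0 := by exact_mod_cast h
    rw [CharP.cast_eq_zero_iff k p] at h3
    exact hp2 ((Nat.prime_dvd_prime_iff_eq Fact.out Nat.prime_two).1 h3)
  have hinj : Function.Injective (beta (k := k) p) := by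
    rw [injective_iff_map_eq_zero]
    intro X hX
    apply Subtype.ext
    refine eq_zero_of_trace_mul h2 (mem_Ad0.1 X.2) fun Y hY => ?_
    have hnd := traceForm_nondegenerate (ZMod p) k
    refine hnd.1 _ fun a => ?_
    have h4 := congrArg (fun f => f (a • (⟨Y, mem_Ad0.2 hY⟩ : Ad0 k))) hX
    simp only [beta_apply, LinearMap.zero_apply, Submodule.coe_smul, Matrix.mul_smul,
      Matrix.trace_smul, smul_eq_mul] at h4
    rw [Algebra.traceForm_apply, mul_comm]
    exact h4
  refine ⟨hinj, ?_⟩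
  exact (LinearMap.injective_iff_surjective_of_finrank_eq_finrank
    (Subspace.dual_finrank_eq (K := ZMod p) (V := Ad0 k)).symm).1 hinj

/-- `β.flip = β` by `Matrix.trace_mul_comm`. -/
theorem beta_flip_bijective [Finite k] (hp2 : p ≠ 2) :
    Function.Bijective (beta (k := k) p).flip := by
  have : (beta (k := k) p).flip = beta p := by
    ext X Y
    rw [LinearMap.flip_apply, beta_apply, beta_apply, Matrix.trace_mul_comm]
  rw [this]
  exact beta_bijective p hp2

theorem isSmoothRep_adDetFp (S : Finset Nat.Primes) (hr : RSmooth r)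
    (hur : ∀ q : Nat.Primes, q ∉ S → RUnramAt r q) : IsSmoothRep (LS S) (adDetFp p r) := by
  intro a
  refine ⟨r.ker, ker_mem_LS r S hr hur, fun u hu => ?_⟩
  apply Subtype.ext
  rw [coe_adDetFp, MonoidHom.mem_ker.1 hu, T.act_one]

end Fermat.Agent.S56.B
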