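/-
S56 block (B), (B3): local dictionary.  A local condition given at the level of functions `c : G → M₂(k)`
(the output shape of the blocks (Lq) and (F)) becomes a submodule of `H¹(Lall, ⊤ ⊓ D, ad⁰ r)` of the relative model,
and a finite set of representatives gives a bound for its `ZMod p`-dimension.
-/
import Fermat.Agent.S56.B.Global

set_option autoImplicit false

open Matrix Module

noncomputable section

namespace Fermat.Agent.S56.B

open Fermat.Agent.S53 (G M2)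
open Fermat.Agent.S56.C (ad rm IsCoc IsCob liftMat)
open Fermat.Agent.PT

variable {k : Type} [Field k]

/-- A local condition at the subgroup `D`, at the level of functions.  OUTPUT SHAPE OF (Lq) AND (F). -/
structure LocCond (r : G →* GL (Fin 2) k) (D : Subgroup G) where
  /-- the predicate -/
  LL : (G → M2 k) → Prop
  add : ∀ c c', LL c → LL c' → LL (c + c')
  cob : ∀ X : M2 k, X.trace = 0 → LL (fun σ => ad (r σ) X - X)
  congr : ∀ c c', (∀ σ ∈ D, c σ = c' σ) → LL c → LL c'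

namespace LocCond

variable {r : G →* GL (Fin 2) k} {D : Subgroup G} (𝓛 : LocCond r D)

theorem zero : 𝓛.LL 0 := by
  have := 𝓛.cob 0 (by simp)
  refine 𝓛.congr _ _ (fun σ _ => ?_) this
  simp [ad_zero]

theorem nsmul (n : ℕ) (c : G → M2 k) (h : 𝓛.LL c) : 𝓛.LL (n • c) := by
  induction n with
  | zero => rw [zero_smul]; exact 𝓛.zero
  | succ n ih => rw [succ_nsmul]; exact 𝓛.add _ _ ih h

variable (p : ℕ) [Fact p.Prime] [Algebra (ZMod p) k]

/-- the cocycles of the relative model satisfying the local condition. -/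
def Zsub : Submodule (ZMod p) (G → G → Ad0 k) where
  carrier := {z | z ∈ Z1 Lall (⊤ ⊓ D) (adFp p r) ∧ 𝓛.LL (inhOf z)}
  zero_mem' := ⟨Submodule.zero_mem _, 𝓛.zero⟩
  add_mem' := by
    rintro z z' ⟨h1, h2⟩ ⟨h1', h2'⟩
    exact ⟨Submodule.add_mem _ h1 h1', 𝓛.add _ _ h2 h2'⟩
  smul_mem' := by
    rintro a z ⟨h1, h2⟩
    refine ⟨Submodule.smul_mem _ a h1, ?_⟩
    have e : a • z = a.val • z := by
      conv_lhs => rw [← ZMod.natCast_zmod_val a]
      rw [Nat.cast_smul_eq_nsmul]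
    rw [e]
    exact 𝓛.nsmul a.val _ h2

theorem mem_Zsub {z : G → G → Ad0 k} :
    z ∈ 𝓛.Zsub p ↔ z ∈ Z1 Lall (⊤ ⊓ D) (adFp p r) ∧ 𝓛.LL (inhOf z) := Iff.rfl

theorem Zsub_le_Z1 : 𝓛.Zsub p ≤ Z1 Lall (⊤ ⊓ D) (adFp p r) := fun _ h => h.1

theorem B1_le_Zsub : B1 Lall (⊤ ⊓ D) (adFp p r) ≤ 𝓛.Zsub p := by
  intro z hz
  have hz1 := B1_le_Z1 hz
  refine ⟨hz1, ?_⟩
  obtain ⟨a, ha⟩ := (mem_B1_iff hz1).1 hz
  refine 𝓛.congr _ _ (fun σ hσ => ?_) (𝓛.cob a (mem_Ad0.1 a.2))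
  have := congrArg Subtype.val (ha σ ⟨Subgroup.mem_top σ, hσ⟩)
  simp only [Submodule.coe_sub, coe_adFp] at this
  rw [inhOf_apply, this]

/-- the classes satisfying the local condition. -/
def Hsub : Submodule (ZMod p) (H1 Lall (⊤ ⊓ D) (adFp p r)) :=
  ((𝓛.Zsub p).submoduleOf (Z1 Lall (⊤ ⊓ D) (adFp p r))).map (H1.mk Lall (⊤ ⊓ D) (adFp p r))

theorem mk_mem_Hsub_iff (z : Z1 Lall (⊤ ⊓ D) (adFp p r)) :
    H1.mk Lall (⊤ ⊓ D) (adFp p r) z ∈ 𝓛.Hsub p ↔ 𝓛.LL (inhOf z.1) := by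
  constructor
  · rintro ⟨z', hz', he⟩
    have h1 : (z' - z : Z1 Lall (⊤ ⊓ D) (adFp p r)).1 ∈ B1 Lall (⊤ ⊓ D) (adFp p r) := by
      rw [← H1.mk_eq_zero_iff]
      exact ((H1.mk Lall (⊤ ⊓ D) (adFp p r)).map_sub z' z).trans (by rw [he, sub_self])
    have h2 := (𝓛.Zsub p).sub_mem hz' (𝓛.B1_le_Zsub p h1)
    have h3 : (z' : G → G → Ad0 k) - (z' - z : Z1 Lall (⊤ ⊓ D) (adFp p r)).1 = z.1 := by
      simp
    have h4 : (Z1 Lall (⊤ ⊓ D) (adFp p r)).subtype z' -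
        (z' - z : Z1 Lall (⊤ ⊓ D) (adFp p r)).1 = z.1 := h3
    rw [h4] at h2
    exact h2.2
  · intro h
    exact ⟨z, ⟨z.2, h⟩, rfl⟩

/-- (B3) a finite set of representatives bounds the cardinality. -/
theorem card_Hsub_le (T : Finset (G → M2 k))
    (hT : ∀ c, 𝓛.LL c → ∃ t ∈ T, ∃ X : M2 k, X.trace = 0 ∧ ∀ σ ∈ D, c σ - t σ = ad (r σ) X - X) :
    Finite (𝓛.Hsub p) ∧ Nat.card (𝓛.Hsub p) ≤ T.card := by
  have h1 : ∀ x : 𝓛.Hsub p, ∃ z : Z1 Lall (⊤ ⊓ D) (adFp p r),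
      H1.mk Lall (⊤ ⊓ D) (adFp p r) z = x.1 ∧ 𝓛.LL (inhOf z.1) := by
    rintro ⟨x, z, hz, rfl⟩
    exact ⟨z, rfl, hz.2⟩
  choose z hz hzL using h1
  choose t htT X hX hXe using fun x => hT _ (hzL x)
  have hinj : Function.Injective (fun x : 𝓛.Hsub p => (⟨t x, htT x⟩ : T)) := by
    intro x x' h
    have ht : t x = t x' := congrArg Subtype.val h
    apply Subtype.ext
    rw [← hz x, ← hz x', ← sub_eq_zero]
    refine ((H1.mk Lall (⊤ ⊓ D) (adFp p r)).map_sub (z x) (z x')).symm.trans ?_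
    rw [H1.mk_eq_zero_iff, mem_B1_iff (z x - z x').2]
    refine ⟨⟨X x - X x', by rw [mem_Ad0, Matrix.trace_sub, hX, hX, sub_zero]⟩, fun v hv => ?_⟩
    apply Subtype.ext
    have e1 := hXe x v hv.2
    have e2 := hXe x' v hv.2
    rw [ht] at e1
    simp only [inhOf_apply] at e1 e2
    simp only [Submodule.coe_sub, coe_adFp, Pi.sub_apply, ad_sub]
    rw [← sub_sub_sub_cancel_right _ _ (t x' v), e1, e2]
    abel
  refine ⟨Finite.of_injective _ hinj, ?_⟩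
  refine le_trans (Nat.card_le_card_of_injective _ hinj) ?_
  rw [Nat.card_eq_fintype_card, Fintype.card_coe]

/-- the invariants, in the shape used by (Lq) and (F). -/
theorem card_invOf_eq :
    Nat.card {X : M2 k // X.trace = 0 ∧ ∀ σ ∈ D, ad (r σ) X = X} = Nat.card (invOf D (adFp p r)) := by
  refine Nat.card_congr
    { toFun := fun X => ⟨⟨X.1, mem_Ad0.2 X.2.1⟩, fun v hv => Subtype.ext (X.2.2 v hv)⟩
      invFun := fun a => ⟨a.1.1, mem_Ad0.1 a.1.2, fun σ hσ => congrArg Subtype.val (a.2 σ hσ)⟩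
      left_inv := fun _ => rfl
      right_inv := fun _ => rfl }

/-- (B3) the bound in terms of `ZMod p`-dimensions: `dim L ≤ h⁰(D, ad⁰) + e [k : 𝔽_p]`. -/
theorem finrank_Hsub_le [Finite k] (e : ℕ) (T : Finset (G → M2 k))
    (hT : ∀ c, 𝓛.LL c → ∃ t ∈ T, ∃ X : M2 k, X.trace = 0 ∧ ∀ σ ∈ D, c σ - t σ = ad (r σ) X - X)
    (hcard : T.card ≤ Nat.card {X : M2 k // X.trace = 0 ∧ ∀ σ ∈ D, ad (r σ) X = X} * Nat.card k ^ e) :
    Module.Finite (ZMod p) (𝓛.Hsub p) ∧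
      finrank (ZMod p) (𝓛.Hsub p) ≤ finrank (ZMod p) (invOf D (adFp p r)) + e * finrank (ZMod p) k := by
  obtain ⟨hfin, hle⟩ := 𝓛.card_Hsub_le p T hT
  have hmf : Module.Finite (ZMod p) (𝓛.Hsub p) := Module.Finite.of_finite
  refine ⟨hmf, ?_⟩
  have h1 := hle.trans hcard
  rw [card_invOf_eq p, Module.natCard_eq_pow_finrank (K := ZMod p) (V := 𝓛.Hsub p),
    Module.natCard_eq_pow_finrank (K := ZMod p) (V := invOf D (adFp p r)),
    Module.natCard_eq_pow_finrank (K := ZMod p) (V := k), ← pow_mul, ← pow_add, Nat.card_zmod,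
    mul_comm (finrank (ZMod p) k) e] at h1
  exact (Nat.pow_le_pow_iff_right (Fact.out : p.Prime).one_lt).1 h1

end LocCond

end Fermat.Agent.S56.B
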