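/-
S56 block (B): THE CONTRACTS consumed by the assembly of S56.
* `GWMainStatement p`   : producer (GW)  (= the statement of `GW.GW_main`);
* `UnipContract p`      : producer (Lq)  (primes `v ∈ Smin`, `v ≠ p`);
* `SOContract p`        : producer (Lq)  (strict ordinary condition at `p`);
* `FlatContract p`      : producer (F)   (flat condition at `p`);
* `G2.EulerStatement p`, `GW.UrBoundStatement p`, `GW.TameBoundStatement p` are defined in their blocks.
A local contract can be delivered in the relative model (`LocalContract`) or at the level of functions (`FunContract`).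
-/
import Fermat.Agent.S56.B.Local
import Fermat.Agent.S56.B.AdDet
import Fermat.Agent.S56.GW.Local

set_option autoImplicit false

open Matrix Module ExtCitation

noncomputable section

namespace Fermat.Agent.S56.B

open Fermat.Agent.S53 (G M2)
open Fermat.Agent.S56.C (ad rm IsCoc IsCob liftMat)
open Fermat.Agent.PT

section local_contracts

variable {k : Type} [Field k]

/-- Local contract at `v` in the relative model: a subspace `Lv` of `H¹(D_v, ad⁰)` of dimension `≤ h⁰(D_v, ad⁰) + e [k : F_p]` containing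
the classes of all cocycles whose inhomogeneous function satisfies `Pr`. -/
def LocalContract (p : ℕ) [Fact p.Prime] [Algebra (ZMod p) k] (r : G →* GL (Fin 2) k)
    (v : Nat.Primes) (e : ℕ) (Pr : (G → M2 k) → Prop) : Prop :=
  ∃ Lv : Submodule (ZMod p) (H1 Lall (⊤ ⊓ Dl v) (adFp p r)),
    Module.Finite (ZMod p) Lv ∧
    finrank (ZMod p) Lv ≤ finrank (ZMod p) (invOf (Dl v) (adFp p r)) + e * finrank (ZMod p) k ∧
    ∀ z : Z1 Lall (⊤ ⊓ Dl v) (adFp p r), Pr (inhOf z.1) → H1.mk Lall (⊤ ⊓ Dl v) (adFp p r) z ∈ Lv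

/-- Local contract at the level of functions (shape of helper1/helper69 for (F)): an additive predicate `LL` on functions
`c : G → M₂(k)`, depending only on `c|D`, containing the coboundaries and all `c` with `Pr c`, whose elements are covered modulo
coboundaries on `D` by a finite set `T` with `#T ≤ #H⁰(D, ad⁰) · #k ^ e`. -/
def FunContract (r : G →* GL (Fin 2) k) (D : Subgroup G) (e : ℕ) (Pr : (G → M2 k) → Prop) : Prop :=
  ∃ 𝓛 : LocCond r D, (∀ c, Pr c → 𝓛.LL c) ∧ ∃ T : Finset (G → M2 k),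
    T.card ≤ Nat.card {X : M2 k // X.trace = 0 ∧ ∀ σ ∈ D, ad (r σ) X = X} * Nat.card k ^ e ∧
    ∀ c, 𝓛.LL c → ∃ t ∈ T, ∃ X : M2 k, X.trace = 0 ∧ ∀ σ ∈ D, c σ - t σ = ad (r σ) X - X

theorem LocalContract.of_fun [Finite k] (p : ℕ) [Fact p.Prime] [Algebra (ZMod p) k]
    {r : G →* GL (Fin 2) k} {v : Nat.Primes} {e : ℕ} {Pr : (G → M2 k) → Prop}
    (h : FunContract r (Dl v) e Pr) : LocalContract p r v e Pr := by
  obtain ⟨𝓛, hPr, T, hT, hcov⟩ := h
  obtain ⟨h1, h2⟩ := 𝓛.finrank_Hsub_le p e T hcov hT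
  exact ⟨𝓛.Hsub p, h1, h2, fun z hz => (𝓛.mk_mem_Hsub_iff p z).2 (hPr _ hz)⟩

theorem LocalContract.mono {p : ℕ} [Fact p.Prime] [Algebra (ZMod p) k]
    {r : G →* GL (Fin 2) k} {v : Nat.Primes} {e : ℕ} {Pr Pr' : (G → M2 k) → Prop}
    (h : LocalContract p r v e Pr) (hPr : ∀ c, Pr' c → Pr c) : LocalContract p r v e Pr' := by
  obtain ⟨Lv, h1, h2, h3⟩ := h
  exact ⟨Lv, h1, h2, fun z hz => h3 z (hPr _ hz)⟩

end local_contracts

variable (p : ℕ) [Fact p.Prime]

/-- (Lq), primes `v ∈ Smin`, `v ≠ p`: `r` ramified at `v`, unipotent on the inertia groups above `v`. -/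
def UnipContract : Prop :=
  ∀ (k : Type) [Field k] [Finite k] [Algebra (ZMod p) k] (r : G →* GL (Fin 2) k), RSmooth r →
    ∀ v : Nat.Primes, (v : ℕ) ≠ p → ¬ RUnramAt r v →
      (∀ P : ValuationSubring Qbar, P.LiesOverPrime (v : ℕ) → ∀ σ ∈ P.inertiaSubgroupIn ℚ,
        (rm r σ).trace = 2 ∧ (rm r σ).det = 1) →
      LocalContract p r v 0 (fun c => IsCoc r c ∧ C.Smooth c ∧ C.TraceZero c ∧ C.UnipAt r c v)

/-- (Lq), the strict ordinary condition at `p`. -/
def SOContract : Prop :=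
  ∀ (k : Type) [Field k] [Finite k] [Algebra (ZMod p) k] (r : G →* GL (Fin 2) k), RSmooth r →
    DetCyc p r →
      LocalContract p r (pPrime p) 1 (fun c => IsCoc r c ∧ C.Smooth c ∧ C.TraceZero c ∧ C.SOAt r c p)

/-- (F), the flat condition at `p`. -/
def FlatContract : Prop :=
  ∀ (k : Type) [Field k] [Finite k] [Algebra (ZMod p) k] (r : G →* GL (Fin 2) k), RSmooth r →
    DetCyc p r →
    (∀ σ : G, ∃ α β : k, (rm r σ).charpoly =
      (Polynomial.X - Polynomial.C α) * (Polynomial.X - Polynomial.C β)) →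
      LocalContract p r (pPrime p) 1 (fun c => IsCoc r c ∧ C.Smooth c ∧ C.TraceZero c ∧ C.FlatAt r c p)

/-- (GW): the statement of `GW.GW_main` (helper56, message 3291). -/
def GWMainStatement : Prop :=
  ∀ (Smin T₀ : Finset Nat.Primes), pPrime p ∈ Smin →
  ∀ (A B : Type) [AddCommGroup A] [Module (ZMod p) A] [AddCommGroup B] [Module (ZMod p) B]
    [Module.Finite (ZMod p) A] [Module.Finite (ZMod p) B]
    (ρ : Representation (ZMod p) GQ A) (σ : Representation (ZMod p) GQ B)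
    (β : A →ₗ[ZMod p] B →ₗ[ZMod p] ZMod p),
    IsSmoothRep (LS Smin) ρ → IsSmoothRep (LS Smin) σ → GW.IsPairingOn ⊤ ρ σ (cycRep p) β →
    Function.Bijective β → Function.Bijective β.flip →
  ∀ (f : ℕ), invOf ⊤ ρ = ⊥ → finrank (ZMod p) (G2.plusPart σ) + f ≤ finrank (ZMod p) B →
  ∀ (𝓛 : GW.LocCond ρ), (∀ v ∈ Smin, Module.Finite (ZMod p) (𝓛 v)) →
    (∑ v ∈ Smin, finrank (ZMod p) (𝓛 v) ≤ ∑ v ∈ Smin, finrank (ZMod p) (invOf (Dl v) ρ) + f) →
    (∀ v ∉ Smin, Module.Finite (ZMod p) (GW.Lur ρ v) ∧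
      finrank (ZMod p) (GW.Lur ρ v) ≤ finrank (ZMod p) (invOf (Dl v) ρ)) →
  ∀ (P : ℕ → Nat.Primes → Prop),
    (∀ n q, P n q → Module.Finite (ZMod p) (H1 Lall (⊤ ⊓ Dl q) ρ) ∧
      finrank (ZMod p) (H1 Lall (⊤ ⊓ Dl q) ρ) ≤ finrank (ZMod p) (invOf (Dl q) ρ) + f) →
    (∀ n (T S' : Finset Nat.Primes), Smin ⊆ S' → ∀ y : H1 (LS S') ⊤ σ, y ≠ 0 →
      ∃ q ∉ T, P n q ∧ GW.locv S' σ q y ≠ 0) →
    ∃ r : ℕ, ∀ n : ℕ, ∃ Q : Finset Nat.Primes, Q.card = r ∧ Disjoint Q T₀ ∧ (∀ q ∈ Q, P n q) ∧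
      Finite (GW.Sel (Smin ∪ Q) ρ (GW.condQ Smin 𝓛 Q)) ∧
      Nat.card (GW.Sel (Smin ∪ Q) ρ (GW.condQ Smin 𝓛 Q)) ≤ p ^ (r * f)

end Fermat.Agent.S56.B
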