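/-
S56 block (B), (B5): the global numerical inputs of `GW_main`:  `H⁰(G_ℚ, ad⁰) = 0` and the archimedean term.
-/
import Fermat.Agent.S56.B.AdDet
import Fermat.Agent.S56.T.Line
import Fermat.Agent.S56.T.RegBasic
import Fermat.Agent.GAL.ALG.Cyclo
import Fermat.Agent.PT.R.Char

set_option autoImplicit false

open Matrix Module ExtCitation

noncomputable section

namespace Fermat.Agent.S56.B

open Fermat.Agent.S53 (G M2)
open Fermat.Agent.S56.C (ad rm IsCoc IsCob liftMat)
open Fermat.Agent.PT

variable {k : Type} [Field k] (p : ℕ) [Fact p.Prime] [Algebra (ZMod p) k] (r : G →* GL (Fin 2) k)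

/-- `2 ≠ 0` in `k` (`algebraMap (ZMod p) k` is injective, `(2 : ZMod p) ≠ 0` because `p` is an odd prime:
`ZMod.natCast_eq_zero_iff`/`(ZMod.natCast_zmod_eq_zero_iff_dvd 2 p)`, `Nat.prime_dvd_prime_iff_eq`). -/
theorem two_ne_zero_of_algebra (hp2 : p ≠ 2) : (2 : k) ≠ 0 := by
  have hchar : CharP k p := by
    have : CharP (ZMod p) p := ZMod.charP p
    exact charP_of_injective_algebraMap (algebraMap (ZMod p) k).injective p
  intro h0
  have h3 : ((2 : ℕ) : k) = 0 := by exact_mod_cast h0
  rw [CharP.cast_eq_zero_iff k p] at h3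
  exact hp2 ((Nat.prime_dvd_prime_iff_eq Fact.out Nat.prime_two).1 h3)

/-- `H⁰(G_ℚ, ad⁰ r) = 0`: an invariant `X ≠ 0` satisfies `T.act (r g) X = det (r g) • X`, contradiction with
`T.no_stable_line`. -/
theorem invOf_top_adFp (hp2 : p ≠ 2) (hsplit : ∀ g, T.Split ((r g : GL (Fin 2) k) : M2 k))
    (hirr : T.Irr2 r) : invOf ⊤ (adFp p r) = ⊥ := by
  rw [eq_bot_iff]
  intro X hX
  rw [Submodule.mem_bot]
  by_contra hX0
  refine T.no_stable_line (two_ne_zero_of_algebra (k := k) p hp2) r hsplit hirr (X := (X : M2 k))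
    (fun h => hX0 (Subtype.ext h)) (mem_Ad0.1 X.2) (fun g => ?_)
  refine ⟨((Matrix.GeneralLinearGroup.det (r g) : kˣ) : k), ?_⟩
  have h1 := congrArg Subtype.val (hX g (Subgroup.mem_top g))
  rw [coe_adFp] at h1
  rw [act_eq_smul_ad, h1]

/-- the cyclotomic character mod `p` of complex conjugation is `-1`
(`GAL.complexConjugation_root_of_unity` : `c μ = μ⁻¹ = μ ^ (p - 1)` for `μ ^ p = 1`; `PT.cycloChar_eq_of_actsBy`;
`((p - 1 : ℕ) : ZMod p) = -1`). -/
theorem cycloChar_complexConjugation :
    ((cycloChar p complexConjugation : (ZMod p)ˣ) : ZMod p) = -1 := by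
  have hp : p.Prime := Fact.out
  have h1 : ((cycloChar p complexConjugation : (ZMod p)ˣ) : ZMod p) = ((p - 1 : ℕ) : ZMod p) := by
    apply cycloChar_eq_of_actsBy
    intro z hz
    rw [Fermat.Agent.GAL.complexConjugation_root_of_unity p z hp.ne_zero hz]
    have h2 : z ^ (p - 1) * z = 1 := by
      rw [← pow_succ, Nat.sub_add_cancel hp.one_le, hz]
    exact (eq_inv_of_mul_eq_one_left h2).symm
  rw [h1, Nat.cast_sub hp.one_le, CharP.cast_eq_zero, Nat.cast_one, zero_sub]

/-- `J = r(c)` satisfies `J² = 1`, `det J = -1`, hence `tr J = 0` (Cayley-Hamilton for `2 × 2` matrices, or entrywise: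
`Matrix.det_fin_two`, `J * J = 1`). -/
theorem rm_cc_mul_self : rm r complexConjugation * rm r complexConjugation = 1 := by
  show ((r complexConjugation : GL (Fin 2) k) : M2 k) * ((r complexConjugation : GL (Fin 2) k) : M2 k) = 1
  rw [← Units.val_mul, ← map_mul, complexConjugation_mul_self, map_one, Units.val_one]

theorem det_cc (hdet : DetCyc p r) :
    ((Matrix.GeneralLinearGroup.det (r complexConjugation) : kˣ) : k) = -1 := by
  rw [hdet complexConjugation, cycloChar_complexConjugation, map_neg, map_one]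

theorem rm_cc_ne_zero : rm r complexConjugation ≠ 0 := by
  intro h
  have h1 := rm_cc_mul_self r
  rw [h, Matrix.mul_zero] at h1
  exact zero_ne_one h1

theorem trace_rm_complexConjugation (hdet : DetCyc p r) : (rm r complexConjugation).trace = 0 := by
  have h1 := T.RegBasic_cayley (rm r complexConjugation)
  have h2 : (rm r complexConjugation).det = -1 := by
    rw [← det_cc p r hdet, Matrix.GeneralLinearGroup.val_det_apply]
    rfl
  rw [rm_cc_mul_self, h2, neg_smul, one_smul, sub_neg_eq_add] at h1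
  have h3 : (rm r complexConjugation).trace • rm r complexConjugation = 0 := by
    have := h1.symm
    rwa [add_eq_right] at this
  exact (smul_eq_zero.1 h3).resolve_right (rm_cc_ne_zero r)

/-- the archimedean input of `GW_main`: `dim ad⁰(1)^{c = 1} + [k : F_p] ≤ dim ad⁰`.

PROOF SKETCH.  `J := rm r c`, `J * J = 1`, `det J = -1`, `tr J = 0`.  `σ(c) Y = - J Y J⁻¹ = - J Y J`.  The `F_p`-linear map
`ι : k → Ad0 k`, `a ↦ a • J` is injective, so its range `R` has `finrank = finrank (ZMod p) k`
(`LinearMap.finrank_range_of_inj`).  `R` is disjoint from `plusPart σ`: `σ(c)(a • J) = - a • J`, so `a • J ∈ plusPart` gives `2 a • J = 0`,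
`a = 0`.  Conclude with `Submodule.finrank_add_finrank_le_of_disjoint`. -/
theorem finrank_plusPart_add_le [Finite k] (hp2 : p ≠ 2) (hdet : DetCyc p r) :
    finrank (ZMod p) (G2.plusPart (adDetFp p r)) + finrank (ZMod p) k ≤ finrank (ZMod p) (Ad0 k) := by
  have h2 := two_ne_zero_of_algebra (k := k) p hp2
  set J : M2 k := rm r complexConjugation with hJ
  have hJtr : J.trace = 0 := trace_rm_complexConjugation p r hdet
  have hJ0 : J ≠ 0 := rm_cc_ne_zero r
  let J0 : Ad0 k := ⟨J, mem_Ad0.2 hJtr⟩
  let ι : k →ₗ[ZMod p] Ad0 k := (LinearMap.toSpanSingleton k (Ad0 k) J0).restrictScalars (ZMod p)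
  have hι_apply : ∀ a : k, ι a = a • J0 := fun a => rfl
  have hJ00 : J0 ≠ 0 := fun h => hJ0 (congrArg Subtype.val h)
  have hι : Function.Injective ι := by
    rw [injective_iff_map_eq_zero]
    intro a ha
    rw [hι_apply] at ha
    exact (smul_eq_zero.1 ha).resolve_right hJ00
  have hact : T.act (r complexConjugation) J = -J := by
    rw [T.act, det_cc p r hdet]
    have h3 : ((r complexConjugation : GL (Fin 2) k) : M2 k) * J *
        (((r complexConjugation)⁻¹ : GL (Fin 2) k) : M2 k) = J := by
      show ((r complexConjugation : GL (Fin 2) k) : M2 k) * ((r complexConjugation : GL (Fin 2) k) : M2 k) *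
        (((r complexConjugation)⁻¹ : GL (Fin 2) k) : M2 k) = ((r complexConjugation : GL (Fin 2) k) : M2 k)
      rw [Matrix.mul_assoc, ← Units.val_mul, mul_inv_cancel, Units.val_one, Matrix.mul_one]
    rw [h3, neg_smul, one_smul]
  have hdisj : Disjoint (G2.plusPart (adDetFp p r)) (LinearMap.range ι) := by
    rw [Submodule.disjoint_def]
    rintro x hx ⟨a, rfl⟩
    rw [G2.plusPart, LinearMap.mem_ker, LinearMap.sub_apply, Module.End.one_apply, sub_eq_zero] at hx
    have h4 := congrArg Subtype.val hx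
    rw [coe_adDetFp, hι_apply, Submodule.coe_smul, T.act_smul] at h4
    change a • T.act (r complexConjugation) J = a • J at h4
    rw [hact, smul_neg] at h4
    have h5 : (2 * a) • J = 0 := by
      rw [two_mul, add_smul]
      nth_rewrite 1 [← h4]
      rw [neg_add_cancel]
    have h6 : a = 0 := by
      rcases smul_eq_zero.1 h5 with h | h
      · exact (mul_eq_zero.1 h).resolve_left h2
      · exact absurd h hJ0
    rw [h6, map_zero]
  have h7 := Submodule.finrank_add_finrank_le_of_disjoint hdisj
  rwa [LinearMap.finrank_range_of_inj hι] at h7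

end Fermat.Agent.S56.B
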