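/-
S56 block (B), (B6): the local input of `GW_main` at a Taylor-Wiles prime `q`:
`dim H¹(D_q, ad⁰) ≤ h⁰(D_q, ad⁰) + [k : F_p]`, from the general contracts `UrBoundStatement`, `TameBoundStatement` of (GW)/(Lq).
-/
import Fermat.Agent.S56.B.Inv
import Fermat.Agent.S56.GW.Local
import Fermat.Agent.PT.Base.WBDefs
import Fermat.Agent.GAL.S31.RootsOfUnity

set_option autoImplicit false

open Matrix Module ExtCitation

noncomputable section

namespace Fermat.Agent.S56.B

open Fermat.Agent.S53 (G M2)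
open Fermat.Agent.S56.C (ad rm IsCoc IsCob liftMat)
open Fermat.Agent.PT

variable {k : Type} [Field k]

/-- `q` is a Taylor-Wiles prime of level `n` for `r` (outside `S`). -/
structure IsTW (r : G →* GL (Fin 2) k) (p : ℕ) (S : Finset ℕ) (n : ℕ) (q : Nat.Primes) : Prop where
  notMem : (q : ℕ) ∉ S
  dvd : p ^ (n + 1) ∣ (q : ℕ) - 1
  reg : ∀ P : ValuationSubring Qbar, P.LiesOverPrime (q : ℕ) → ∀ φ : G, P.IsFrobeniusAt φ (q : ℕ) →
    T.Reg (rm r φ)

/-- (linear algebra) the trace zero matrices commuting with a regular matrix `M` are the multiples of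
`N = M - (tr M / 2) • 1`.
PROOF SKETCH.  `a = !![x, y; z, -x]`, `N = !![δ, m₁₂; m₂₁, -δ]`, `δ = (m₁₁ - m₂₂)/2`.  `a M = M a` gives
`x m₁₂ = y δ`, `x m₂₁ = z δ`, `y m₂₁ = z m₁₂`.  `N ≠ 0` because `M` is not scalar (a scalar matrix has charpoly `(X - c)²`,
which is not `(X - α)(X - β)` with `α ≠ β`: compare roots / `Matrix.charpoly_fin_two` + discriminant
`(tr M)² - 4 det M = (α - β)² ≠ 0`).  Case split on which of `δ, m₁₂, m₂₁` is nonzero. -/
theorem exists_smul_of_commute (h2 : (2 : k) ≠ 0) {M : M2 k} (hM : T.Reg M) {a : M2 k}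
    (ha : a.trace = 0) (hc : a * M = M * a) :
    ∃ c : k, a = c • (M - (M.trace / 2) • (1 : M2 k)) := by
  obtain ⟨α, β, hαβ, hchar⟩ := hM
  rw [Matrix.charpoly_fin_two] at hchar
  have p0 := congrArg (Polynomial.eval 0) hchar
  have p1 := congrArg (Polynomial.eval 1) hchar
  simp only [Polynomial.eval_add, Polynomial.eval_sub, Polynomial.eval_mul, Polynomial.eval_pow,
    Polynomial.eval_X, Polynomial.eval_C] at p0 p1
  have hdet : M.det = α * β := by linear_combination p0
  have htr : M.trace = α + β := by linear_combination hdet - p1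
  rw [Matrix.det_fin_two] at hdet
  rw [Matrix.trace_fin_two] at htr ha
  have c00 := congrFun (congrFun hc 0) 0
  have c01 := congrFun (congrFun hc 0) 1
  have c10 := congrFun (congrFun hc 1) 0
  simp only [Matrix.mul_apply, Fin.sum_univ_two] at c00 c01 c10
  have hdisc : (M 0 0 - M 1 1) ^ 2 + 4 * (M 0 1 * M 1 0) ≠ 0 := by
    have : (M 0 0 - M 1 1) ^ 2 + 4 * (M 0 1 * M 1 0) = (α - β) ^ 2 := by
      have e1 : M 0 0 = α + β - M 1 1 := by linear_combination htr
      rw [e1] at hdet ⊢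
      linear_combination (-4 : k) * hdet
    rw [this]
    exact pow_ne_zero 2 (sub_ne_zero.2 hαβ)
  have ha11 : a 1 1 = - a 0 0 := by linear_combination ha
  have hN : ∀ c : k, (c • (M - (M.trace / 2) • (1 : M2 k))) =
      !![c * ((M 0 0 - M 1 1) / 2), c * M 0 1; c * M 1 0, - (c * ((M 0 0 - M 1 1) / 2))] := by
    intro c
    ext i j
    fin_cases i <;> fin_cases j
    · simp only [Matrix.trace_fin_two, Fin.zero_eta, Matrix.smul_apply, Matrix.sub_apply,
        Matrix.one_apply_eq, smul_eq_mul, mul_one, Matrix.of_apply, Matrix.cons_val',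
        Matrix.cons_val_zero, Matrix.cons_val_fin_one]
      field_simp
      ring
    · simp
    · simp
    · simp only [Matrix.trace_fin_two, Fin.mk_one, Matrix.smul_apply, Matrix.sub_apply,
        Matrix.one_apply_eq, smul_eq_mul, mul_one, Matrix.of_apply, Matrix.cons_val',
        Matrix.cons_val_one, Matrix.cons_val_fin_one]
      field_simp
      ring
  by_cases hδ : M 0 0 - M 1 1 = 0
  · have hm : M 0 1 * M 1 0 ≠ 0 := by
      intro h0
      apply hdisc
      rw [hδ, h0]; ring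
    have hm01 : M 0 1 ≠ 0 := left_ne_zero_of_mul hm
    have hx : a 0 0 = 0 := by
      have : (2 * M 0 1) * a 0 0 = 0 := by
        rw [ha11] at c01
        linear_combination c01 + a 0 1 * hδ
      exact (mul_eq_zero.1 this).resolve_left (mul_ne_zero h2 hm01)
    refine ⟨a 0 1 / M 0 1, ?_⟩
    rw [hN]
    ext i j
    fin_cases i <;> fin_cases j
    · simp [hδ, hx]
    · simp; field_simp
    · simp only [Fin.mk_one, Fin.zero_eta, Matrix.of_apply, Matrix.cons_val', Matrix.cons_val_zero,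
        Matrix.cons_val_one, Matrix.cons_val_fin_one]
      field_simp
      linear_combination -c00
    · simp [hδ, ha11, hx]
  · refine ⟨2 * a 0 0 / (M 0 0 - M 1 1), ?_⟩
    rw [hN]
    ext i j
    fin_cases i <;> fin_cases j
    · simp; field_simp
    · simp only [Fin.mk_one, Fin.zero_eta, Matrix.of_apply, Matrix.cons_val', Matrix.cons_val_zero,
        Matrix.cons_val_one, Matrix.cons_val_fin_one]
      field_simp
      rw [ha11] at c01
      linear_combination -c01
    · simp only [Fin.mk_one, Fin.zero_eta, Matrix.of_apply, Matrix.cons_val', Matrix.cons_val_zero,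
        Matrix.cons_val_one, Matrix.cons_val_fin_one]
      field_simp
      rw [ha11] at c10
      linear_combination c10
    · simp [ha11]; field_simp

variable (p : ℕ) [Fact p.Prime] [Algebra (ZMod p) k] (r : G →* GL (Fin 2) k)

/-- a Frobenius element at the place `primeLocalPlace q`
(`Lib.Frobenius.exists_isFrobeniusAt`, `PT.WB.primeLocalPlace_liesOver`, `IsFrobeniusAt.mem_decompositionSubgroup`). -/
theorem exists_frob_Dl (q : Nat.Primes) :
    ∃ φ : G, φ ∈ Dl q ∧ (primeLocalPlace q).IsFrobeniusAt φ (q : ℕ) := by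
  obtain ⟨φ, hφ⟩ := Fermat.Agent.Lib.Frobenius.exists_isFrobeniusAt (primeLocalPlace q) q.2
    (WB.primeLocalPlace_liesOver q)
  exact ⟨φ, hφ.mem_decompositionSubgroup, hφ⟩

/-- `χ(Frob_q) = q mod p` (`GAL.S31.frobenius_apply_root`, `PT.cycloChar_eq_of_actsBy`). -/
theorem cycloChar_frob {q : Nat.Primes} (hq : (q : ℕ) ≠ p) {P : ValuationSubring Qbar}
    (hP : P.LiesOverPrime (q : ℕ)) {φ : G} (hφ : P.IsFrobeniusAt φ (q : ℕ)) :
    ((cycloChar p φ : (ZMod p)ˣ) : ZMod p) = ((q : ℕ) : ZMod p) := by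
  apply cycloChar_eq_of_actsBy
  intro z hz
  refine Fermat.Agent.GAL.S31.frobenius_apply_root P q.2 hP hφ (n := p) ?_ hz
  intro hdvd
  exact hq ((Nat.prime_dvd_prime_iff_eq q.2 Fact.out).1 hdvd)

theorem unramAt_adFp {q : Nat.Primes} (h : RUnramAt r q) : GW.UnramAt (adFp p r) q := by
  intro g hg
  ext X : 2
  rw [coe_adFp, h _ (WB.primeLocalPlace_liesOver q) g hg, ad_one]
  rfl

/-- `dim {a ∈ ad⁰ | d a = χ(d) a ∀ d ∈ D_q} ≤ [k : F_p]` at a Taylor-Wiles prime.
PROOF SKETCH.  `φ` from `exists_frob_Dl`; `χ(φ) = q = 1` in `ZMod p` (`cycloChar_frob`, `h.dvd`: `p ∣ q - 1`,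
`(ZMod.natCast_eq_natCast_iff' ..)`/`Nat.ModEq`).  So `a ∈ twInv` commutes with `M = rm r φ` (`ad (r φ) a = a`, multiply by `r φ` on the
right: `C.ad_mul_rm`), `M` regular (`h.reg`), so `a ∈ range (c ↦ c • N)` by `exists_smul_of_commute`; the range of an `F_p`-linear map
from `k` has `finrank ≤ finrank (ZMod p) k` (`LinearMap.finrank_range_le`, `Submodule.finrank_mono`). -/
theorem finrank_twInv_le [Finite k] (hp2 : p ≠ 2) {S : Finset ℕ} (hpS : p ∈ S) {n : ℕ}
    {q : Nat.Primes} (h : IsTW r p S n q) :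
    finrank (ZMod p) (GW.twInv (adFp p r) q) ≤ finrank (ZMod p) k := by
  have hchar : CharP k p := by
    have : CharP (ZMod p) p := ZMod.charP p
    exact charP_of_injective_algebraMap (algebraMap (ZMod p) k).injective p
  have h2 : (2 : k) ≠ 0 := by
    intro h0
    have h3 : ((2 : ℕ) : k) = 0 := by exact_mod_cast h0
    rw [CharP.cast_eq_zero_iff k p] at h3
    exact hp2 ((Nat.prime_dvd_prime_iff_eq Fact.out Nat.prime_two).1 h3)
  obtain ⟨φ, hφD, hφ⟩ := exists_frob_Dl q
  have hqp : (q : ℕ) ≠ p := fun e => h.notMem (e ▸ hpS)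
  have hχ : ((cycloChar p φ : (ZMod p)ˣ) : ZMod p) = 1 := by
    rw [cycloChar_frob p hqp (WB.primeLocalPlace_liesOver q) hφ]
    have hd : p ∣ (q : ℕ) - 1 := (dvd_pow_self p (Nat.succ_ne_zero n)).trans h.dvd
    have h1 : (((q : ℕ) - 1 : ℕ) : ZMod p) = 0 := (ZMod.natCast_eq_zero_iff _ _).2 hd
    rw [Nat.cast_sub q.2.one_le, Nat.cast_one, sub_eq_zero] at h1
    exact h1
  have hreg := h.reg _ (WB.primeLocalPlace_liesOver q) φ hφ
  set N : M2 k := rm r φ - ((rm r φ).trace / 2) • (1 : M2 k) with hN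
  let F : k →ₗ[ZMod p] M2 k :=
    ((LinearMap.toSpanSingleton k (M2 k) N).restrictScalars (ZMod p))
  let J : Ad0 k →ₗ[ZMod p] M2 k := (Ad0 k).subtype.restrictScalars (ZMod p)
  have hJ : Function.Injective J := Subtype.val_injective
  have hle : (GW.twInv (adFp p r) q).map J ≤ LinearMap.range F := by
    rintro _ ⟨a, ha, rfl⟩
    have h1 := GW.mem_twInv.1 ha φ hφD
    rw [hχ, one_smul] at h1
    have h3 : ad (r φ) (a : M2 k) = a := by
      have := congrArg Subtype.val h1
      rwa [coe_adFp] at this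
    have hc : (a : M2 k) * rm r φ = rm r φ * (a : M2 k) := by
      rw [← C.ad_mul_rm r φ (a : M2 k), h3]
    obtain ⟨c, hc'⟩ := exists_smul_of_commute h2 hreg (mem_Ad0.1 a.2) hc
    exact ⟨c, hc'.symm⟩
  calc finrank (ZMod p) (GW.twInv (adFp p r) q)
      = finrank (ZMod p) ((GW.twInv (adFp p r) q).map J) :=
        (LinearEquiv.finrank_eq (Submodule.equivMapOfInjective J hJ _))
    _ ≤ finrank (ZMod p) (LinearMap.range F) := Submodule.finrank_mono hle
    _ ≤ finrank (ZMod p) k := LinearMap.finrank_range_le F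

/-- the hypothesis `hP` of `GW_main`. -/
theorem finrank_H1_TW_le [Finite k] (hp2 : p ≠ 2) (hur : GW.UrBoundStatement p)
    (htame : GW.TameBoundStatement p) (hr : RSmooth r) {S : Finset ℕ} (hpS : p ∈ S) {n : ℕ}
    {q : Nat.Primes} (hun : RUnramAt r q) (h : IsTW r p S n q) :
    Module.Finite (ZMod p) (H1 Lall (⊤ ⊓ Dl q) (adFp p r)) ∧
      finrank (ZMod p) (H1 Lall (⊤ ⊓ Dl q) (adFp p r)) ≤
        finrank (ZMod p) (invOf (Dl q) (adFp p r)) + finrank (ZMod p) k := by
  refine GW.finrank_H1_le hur htame (adFp p r) (isSmoothRep_adFp_Lall p r hr) q ?_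
    (unramAt_adFp p r hun) _ (finrank_twInv_le p r hp2 hpS h)
  intro hq
  apply h.notMem
  rw [hq]
  exact hpS

end Fermat.Agent.S56.B
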