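/-
S56 block (B), (B1b): the hypothesis `hsup` of `GW_main` (supply of Taylor-Wiles primes), from block (T).
A nonzero class `y ∈ H¹(G_{ℚ,S'}, ad⁰(1))` is detected at a Taylor-Wiles prime of any level outside any finite set.
-/
import Fermat.Agent.S56.B.TWLocal
import Fermat.Agent.S56.T.Main
import Fermat.Agent.PT.Base.Conj

set_option autoImplicit false

open Matrix Module ExtCitation Polynomial
open scoped Pointwise

noncomputable section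

namespace Fermat.Agent.S56.B

open Fermat.Agent.S53 (G M2)
open Fermat.Agent.S56.C (ad rm IsCoc IsCob liftMat)
open Fermat.Agent.PT

section conj

variable {R : Type*} [CommRing R] {A : Type*} [AddCommGroup A] [Module R A]

/-- local triviality (degree 1) at `𝒜` and at `γ 𝒜` are equivalent.  (Copy of `PT.Base.mem_B2_smul` in degree 1:
`(twC Lall ρ γ hc).memB1`, `tw1_of_mem`; or directly with `PT.mem_B1_iff`: if `z 1 v = ρ v a - a` on `D` then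
`z 1 w = ρ w a' - a'` on `γ D γ⁻¹` with `a' = ρ γ a - z 1 γ`, using `PT.inh1_cocycle`.) -/
theorem mem_B1_smul {L' : LevelSystem GQ} {ρ : Representation R GQ A}
    {z : GQ → GQ → A} (hz : z ∈ Z1 L' ⊤ ρ) (hL : L' ≤ Lall) (γ : GQ) {𝒜 : Place}
    (h : z ∈ B1 Lall (⊤ ⊓ Dec 𝒜) ρ) : z ∈ B1 Lall (⊤ ⊓ Dec (γ • 𝒜)) ρ := by
  have hc : ∀ w ∈ (⊤ : Subgroup GQ) ⊓ Dec (γ • 𝒜), γ⁻¹ * w * γ ∈ (⊤ : Subgroup GQ) ⊓ Dec 𝒜 :=
    fun w hw => ⟨Subgroup.mem_top _, (Base.mem_Dec_smul_iff γ w 𝒜).1 hw.2⟩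
  have h1 := (twC Lall ρ γ hc).memB1 h
  have h2 : tw1 ρ γ z = z := tw1_of_mem (Subgroup.mem_top γ) (mem_Z1.1 hz).1
  have h3 : tw1 ρ γ z ∈ B1 Lall (⊤ ⊓ Dec (γ • 𝒜)) ρ := h1
  rwa [h2] at h3

end conj

variable {k : Type} [Field k] (p : ℕ) [Fact p.Prime] [Algebra (ZMod p) k] (ρ : ResidualGaloisRep k)

theorem rm_matRep (g : G) : rm (T.matRep ρ) g = LinearMap.toMatrixAlgEquiv (T.bas ρ) (ρ.ρ g) := rfl

/-- the matrix form used everywhere in the assembly of S56. -/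
theorem hasMatrixRes_matRep : Fermat.Agent.S53.HasMatrixRes ρ (rm (T.matRep ρ)) :=
  ⟨T.bas ρ, fun _ => rfl⟩

/-- the `End_k(V)` valued cochain of block (T) attached to a homogeneous cochain. -/
def psiE (z : G → G → Ad0 k) : G → Module.End k ρ.V :=
  fun g => (LinearMap.toMatrixAlgEquiv (T.bas ρ)).symm (inhOf z g)

theorem matCoc_psiE (z : G → G → Ad0 k) : T.matCoc ρ (psiE ρ z) = inhOf z := by
  funext g
  simp [T.matCoc, psiE]

/-- (`T.trace_toMatrix`, `T.toMatrix_actE`, `PT.inh1_cocycle`, smoothness: `z ∈ X1 L ⊤`, `L ≤ Lall`, a level of `Lall` is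
`F.fixingSubgroup` with `F` finite dimensional.) -/
theorem isCocE_psiE {L : LevelSystem G} (hL : L ≤ Lall) {z : G → G → Ad0 k}
    (hz : z ∈ Z1 L ⊤ (adDetFp p (T.matRep ρ))) : T.IsCocE ρ (psiE ρ z) := by
  refine ⟨fun g => ?_, fun g h => ?_, ?_⟩
  · rw [← T.trace_toMatrix, psiE, AlgEquiv.apply_symm_apply]
    exact mem_Ad0.1 (z 1 g).2
  · apply (LinearMap.toMatrixAlgEquiv (T.bas ρ)).injective
    rw [map_add, T.toMatrix_actE, psiE, psiE, psiE, AlgEquiv.apply_symm_apply,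
      AlgEquiv.apply_symm_apply, AlgEquiv.apply_symm_apply]
    have h1 := congrArg Subtype.val (inh1_cocycle hz g (Subgroup.mem_top g) h)
    simp only [Submodule.coe_add, coe_adDetFp] at h1
    rw [inhOf_apply, h1, add_comm]
    rfl
  · obtain ⟨⟨-, U, hU, hs⟩, -⟩ := hz
    obtain ⟨-, F, hF, rfl⟩ := hL hU
    refine ⟨F, hF, fun τ hτ g => ?_⟩
    have hτ' : τ ∈ F.fixingSubgroup := by
      rw [IntermediateField.mem_fixingSubgroup_iff]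
      exact hτ
    have h1 := hs 1 g 1 (Subgroup.one_mem _) τ hτ'
    rw [mul_one] at h1
    rw [psiE, psiE, inhOf_apply, inhOf_apply, h1]

/-- (`PT.mem_B1_iff`; `a := toMatrixAlgEquiv X`.) -/
theorem mem_B1_of_isCobE {L : LevelSystem G} {z : G → G → Ad0 k}
    (hz : z ∈ Z1 L ⊤ (adDetFp p (T.matRep ρ))) (h : T.IsCobE ρ (psiE ρ z)) :
    z ∈ B1 L ⊤ (adDetFp p (T.matRep ρ)) := by
  obtain ⟨X, hX, h⟩ := h
  rw [mem_B1_iff hz]
  refine ⟨⟨LinearMap.toMatrixAlgEquiv (T.bas ρ) X, by rw [mem_Ad0, T.trace_toMatrix, hX]⟩,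
    fun v _ => ?_⟩
  apply Subtype.ext
  have h1 := congrArg (LinearMap.toMatrixAlgEquiv (T.bas ρ)) (h v)
  rw [psiE, AlgEquiv.apply_symm_apply, map_sub, T.toMatrix_actE] at h1
  rw [Submodule.coe_sub, coe_adDetFp]
  exact h1

/-- if `z` is locally trivial at a place `P` then `tr (ψ(φ) ρ(φ)) = 0` for `φ ∈ D_P` with `det ρ(φ) = 1`
(`PT.mem_B1_iff`, `T.trace_act_sub_mul` or `T.trace_eq_zero_of_cob`, `T.trace_matCoc_mul`). -/
theorem trace_eq_zero_of_mem_B1 {L : LevelSystem G} {z : G → G → Ad0 k}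
    (hz : z ∈ Z1 L ⊤ (adDetFp p (T.matRep ρ))) (hL : L ≤ Lall) {P : Place}
    (h : z ∈ B1 Lall (⊤ ⊓ Dec P) (adDetFp p (T.matRep ρ))) {φ : G} (hφ : φ ∈ Dec P)
    (hdet : LinearMap.det (ρ.ρ φ) = 1) :
    LinearMap.trace k ρ.V (psiE ρ z φ * ρ.ρ φ) = 0 := by
  have hz' : z ∈ Z1 Lall (⊤ ⊓ Dec P) (adDetFp p (T.matRep ρ)) :=
    ((inclC (adDetFp p (T.matRep ρ)) hL (inf_le_left : ⊤ ⊓ Dec P ≤ ⊤)).Z1 ⟨z, hz⟩).2
  obtain ⟨a, ha⟩ := (mem_B1_iff hz').1 h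
  have h1 := congrArg Subtype.val (ha φ ⟨Subgroup.mem_top φ, hφ⟩)
  rw [Submodule.coe_sub, coe_adDetFp] at h1
  rw [← T.trace_matCoc_mul, matCoc_psiE, inhOf_apply, h1]
  apply T.trace_act_sub_mul
  apply Units.ext
  rw [T.det_matRep, hdet, Units.val_one]

/-- **Supply of Taylor-Wiles primes** (hypothesis `hsup` of `GW_main`).

PROOF SKETCH.  `y = H1.mk z`, `z ∉ B1` (`H1.mk_eq_zero_iff`).  `T.exists_TW_prime` for `ψ = psiE ρ z` (`isCocE_psiE`, `mem_B1_of_isCobE`), level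
`n`, and the finite set `T₁.image (↑) ∪ S`: `q, P, φ`.  `IsTW`: `T.charpoly_frobenius_eq` (`ρ` is unramified at `q ∉ S`) + `T.charpoly_matRep`.
`locv S' σ q y = H1.mk ⟨z, _⟩` (`rfl`); if it vanishes, `z ∈ B1 Lall (⊤ ⊓ Dl q)`, so `z ∈ B1 Lall (⊤ ⊓ Dec P)` by `mem_B1_smul`
(`PT.exists_smul_eq_of_liesOverPrime`, `PT.WB.primeLocalPlace_liesOver`), contradiction with `trace_eq_zero_of_mem_B1`. -/
theorem tw_supply [Finite k] (hp2 : p ≠ 2) (habs : ρ.IsAbsolutelyIrreducible)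
    (hdet : (GaloisRepAdic.ofResidualGaloisRep ρ).DetIsCyclotomic p)
    (hsplit : ∀ σ : G, ∃ α β : k, LinearMap.charpoly (ρ.ρ σ) = (X - C α) * (X - C β))
    (hTW : ∀ (K : Type) [Field K] [Algebra k K] (H : Subgroup G), H.index = 2 →
      ∀ V : Submodule K (ρ.baseChange K).V,
        (∀ σ ∈ H, ∀ x ∈ V, (ρ.baseChange K).ρ σ x ∈ V) → V = ⊥ ∨ V = ⊤)
    (S : Finset ℕ) (hunr : ∀ q : ℕ, q.Prime → q ∉ S → ρ.IsUnramifiedAt q)
    (n : ℕ) (T₁ S' : Finset Nat.Primes) (y : H1 (LS S') ⊤ (adDetFp p (T.matRep ρ))) (hy : y ≠ 0) :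
    ∃ q ∉ T₁, IsTW (T.matRep ρ) p S n q ∧ GW.locv S' (adDetFp p (T.matRep ρ)) q y ≠ 0 := by
  classical
  obtain ⟨z, rfl⟩ := H1.mk_surjective (LS S') ⊤ (adDetFp p (T.matRep ρ)) y
  have hzB : (z : G → G → Ad0 k) ∉ B1 (LS S') ⊤ (adDetFp p (T.matRep ρ)) := fun h =>
    hy ((H1.mk_eq_zero_iff (LS S') ⊤ _ z).2 h)
  obtain ⟨q, P, φ, hq, hqT, hdvd, hP, hφ, hdet1, ⟨α, β, hαβ, hchar⟩, htr⟩ :=
    T.exists_TW_prime p hp2 ρ habs hdet hsplit hTW n (T₁.image (fun q : Nat.Primes => (q : ℕ)) ∪ S)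
      (psiE ρ z) (isCocE_psiE p ρ (LS_le_Lall S') z.2)
      (fun h => hzB (mem_B1_of_isCobE p ρ z.2 h))
  have hqT₁ : (⟨q, hq⟩ : Nat.Primes) ∉ T₁ := fun h =>
    hqT (Finset.mem_union_left _ (Finset.mem_image.2 ⟨⟨q, hq⟩, h, rfl⟩))
  have hqS : q ∉ S := fun h => hqT (Finset.mem_union_right _ h)
  refine ⟨⟨q, hq⟩, hqT₁, ⟨hqS, hdvd, fun P' hP' φ' hφ' => ?_⟩, fun h0 => ?_⟩
  · refine ⟨α, β, hαβ, ?_⟩
    have h1 := T.charpoly_frobenius_eq ρ hq (hunr q hq hqS) hP hφ hP' hφ'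
    have h2 : (rm (T.matRep ρ) φ').charpoly = LinearMap.charpoly (ρ.ρ φ') := T.charpoly_matRep ρ φ'
    rw [h2, h1, hchar]
  · have h1 : (z : G → G → Ad0 k) ∈ B1 Lall (⊤ ⊓ Dl ⟨q, hq⟩) (adDetFp p (T.matRep ρ)) :=
      (H1.mk_eq_zero_iff Lall (⊤ ⊓ Dl ⟨q, hq⟩) _
        ((inclC (adDetFp p (T.matRep ρ)) (LS_le_Lall S') inf_le_left).Z1 z)).1 h0
    obtain ⟨γ, hγ⟩ := Base.exists_smul_Pl0_eq (ℓ := ⟨q, hq⟩) (ℬ := P) hP
    have h2 := mem_B1_smul z.2 (LS_le_Lall S') γ h1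
    rw [show γ • primeLocalPlace ⟨q, hq⟩ = P from hγ] at h2
    exact htr (trace_eq_zero_of_mem_B1 p ρ z.2 (LS_le_Lall S') h2 hφ.mem_decompositionSubgroup hdet1)

end Fermat.Agent.S56.B
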