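/-
S56 block (B): properties of the matrix form `r = T.matRep ρ` of the residual representation.
-/
import Fermat.Agent.S56.B.TWSupply

set_option autoImplicit false

open Matrix Module ExtCitation Polynomial

noncomputable section

namespace Fermat.Agent.S56.B

open Fermat.Agent.S53 (G M2)
open Fermat.Agent.S56.C (ad rm IsCoc IsCob liftMat)
open Fermat.Agent.PT

variable {k : Type} [Field k] (ρ : ResidualGaloisRep k)

theorem matRep_eq_one_iff (g : G) : T.matRep ρ g = 1 ↔ ρ.ρ g = 1 := by
  constructor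
  · intro h
    have h1 := congrArg (fun u : GL (Fin 2) k => (u : M2 k)) h
    simp only [T.coe_matRep, Units.val_one] at h1
    apply (LinearMap.toMatrixAlgEquiv (T.bas ρ)).injective
    rw [h1, map_one]
  · intro h
    apply Units.ext
    rw [T.coe_matRep, h, map_one, Units.val_one]

theorem rSmooth_matRep : RSmooth (T.matRep ρ) := by
  obtain ⟨L, hL, h⟩ := ρ.factorsThroughFiniteLevel
  exact ⟨L, hL, fun s hs => (matRep_eq_one_iff ρ s).2 (h s hs)⟩

theorem rUnramAt_matRep_iff (q : ℕ) : RUnramAt (T.matRep ρ) q ↔ ρ.IsUnramifiedAt q := by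
  constructor
  · intro h P hP σ hσ
    exact (matRep_eq_one_iff ρ σ).1 (h P hP σ hσ)
  · intro h P hP σ hσ
    exact (matRep_eq_one_iff ρ σ).2 (h P hP σ hσ)

/-- `det r` is the cyclotomic character mod `p`
(`T.det_matRep`, `T.det_eq_of_actsBy hdet` with `a = (cycloChar p g).val`, `PT.apply_eq_pow_cycloChar`;
`algebraMap (ZMod p) k x = (x.val : k)`: `ZMod.natCast_zmod_val`, `map_natCast`). -/
theorem detCyc_matRep (p : ℕ) [Fact p.Prime] [Algebra (ZMod p) k]
    (hdet : (GaloisRepAdic.ofResidualGaloisRep ρ).DetIsCyclotomic p) : DetCyc p (T.matRep ρ) := by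
  intro g
  rw [T.det_matRep, T.det_eq_of_actsBy hdet (σ := g)
    (a := ((cycloChar p g : (ZMod p)ˣ) : ZMod p).val) (fun μ hμ => apply_eq_pow_cycloChar g hμ)]
  conv_rhs => rw [← ZMod.natCast_zmod_val ((cycloChar p g : (ZMod p)ˣ) : ZMod p)]
  rw [map_natCast]

end Fermat.Agent.S56.B
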