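/-
S56 block (B), (B4): from a bound for the cardinality of a Selmer group of the relative model (output of `GW_main`) to a
finite set of representatives at the level of functions (contracts `C.SelBoundSO`, `C.SelBoundFl` of block (C)).
-/
import Fermat.Agent.S56.B.Local
import Fermat.Agent.S56.GW.Sel

set_option autoImplicit false

open Matrix Module ExtCitation

noncomputable section

namespace Fermat.Agent.S56.B

open Fermat.Agent.S53 (G M2)
open Fermat.Agent.S56.C (ad rm IsCoc IsCob liftMat)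
open Fermat.Agent.PT

variable {k : Type} [Field k] (p : ℕ) [Fact p.Prime] [Algebra (ZMod p) k] (r : G →* GL (Fin 2) k)

/-- (B4) representatives of the Selmer classes. -/
theorem exists_reps (S' : Finset Nat.Primes) (hr : RSmooth r)
    (hur : ∀ q : Nat.Primes, q ∉ S' → RUnramAt r q) (𝓜 : GW.LocCond (adFp p r))
    (hfin : Finite (GW.Sel S' (adFp p r) 𝓜)) (N : ℕ)
    (hcard : Nat.card (GW.Sel S' (adFp p r) 𝓜) ≤ N) (Pr : (G → M2 k) → Prop)
    (hPr : ∀ c, Pr c → IsCoc r c ∧ C.Smooth c ∧ C.TraceZero c ∧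
      ∀ q : Nat.Primes, q ∉ S' → C.UnramAt c q)
    (hloc : ∀ c, Pr c → ∀ z : Z1 (LS S') ⊤ (adFp p r), inhOf z.1 = c →
      H1.mk (LS S') ⊤ (adFp p r) z ∈ GW.Sel S' (adFp p r) 𝓜) :
    ∃ T : Finset (G → M2 k), T.card ≤ N ∧ (∃ t ∈ T, IsCob r t) ∧
      ∀ c, Pr c → ∃ t ∈ T, IsCob r (c - t) := by
  classical
  haveI := Fintype.ofFinite (GW.Sel S' (adFp p r) 𝓜)
  choose zz hzz using fun x : GW.Sel S' (adFp p r) 𝓜 => H1.mk_surjective (LS S') ⊤ (adFp p r) x.1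
  refine ⟨Finset.univ.image fun x => inhOf (zz x).1, ?_, ?_, ?_⟩
  · refine le_trans Finset.card_image_le ?_
    rw [Finset.card_univ, ← Nat.card_eq_fintype_card]
    exact hcard
  · refine ⟨inhOf (zz 0).1, Finset.mem_image_of_mem _ (Finset.mem_univ _), ?_⟩
    refine isCob_inhOf p r (LS S') ?_
    rw [← H1.mk_eq_zero_iff, hzz]
    rfl
  · intro c hc
    obtain ⟨h1, h2, h3, h4⟩ := hPr c hc
    set z : Z1 (LS S') ⊤ (adFp p r) := ⟨zOf p r c h3, zOf_mem_Z1 p r S' hr hur h1 h2 h3 h4⟩ with hz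
    have hmem := hloc c hc z (inhOf_zOf p r c h3)
    refine ⟨inhOf (zz ⟨_, hmem⟩).1, Finset.mem_image_of_mem _ (Finset.mem_univ _), ?_⟩
    refine isCob_of_sub_mem_B1 p r (LS S') h3 ?_
    have h5 : (z - zz ⟨_, hmem⟩ : Z1 (LS S') ⊤ (adFp p r)).1 ∈ B1 (LS S') ⊤ (adFp p r) := by
      rw [← H1.mk_eq_zero_iff]
      refine ((H1.mk (LS S') ⊤ (adFp p r)).map_sub z (zz ⟨_, hmem⟩)).trans ?_
      rw [hzz, sub_self]
    exact h5

/-- the localisation of a class, at the level of cocycles. -/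
theorem locv_mk (S' : Finset Nat.Primes) (v : Nat.Primes) (z : Z1 (LS S') ⊤ (adFp p r)) :
    ∃ hz : z.1 ∈ Z1 Lall (⊤ ⊓ Dl v) (adFp p r),
      GW.locv S' (adFp p r) v (H1.mk (LS S') ⊤ (adFp p r) z) =
        H1.mk Lall (⊤ ⊓ Dl v) (adFp p r) ⟨z.1, hz⟩ :=
  ⟨((inclC (adFp p r) (LS_le_Lall S')
    (inf_le_left : ⊤ ⊓ Dec (primeLocalPlace v) ≤ ⊤)).Z1 z).2, rfl⟩

end Fermat.Agent.S56.B
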