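/-
S56 block (B): `FlatContract` from the export of block (F), stated as the contract `FFunStatement`
(= the announced statement of `F.flat_funContract`, helper1, message 3792).
-/
import Fermat.Agent.S56.B.Contracts
import Fermat.Agent.S56.F.E2
import Fermat.Agent.S56.Lq.Glue
import Fermat.Agent.PT.R.Char

set_option autoImplicit false

open Matrix Module ExtCitation

noncomputable section

namespace Fermat.Agent.S56.B

open Fermat.Agent.S53 (G M2)
open Fermat.Agent.S56.C (ad rm IsCoc IsCob liftMat)
open Fermat.Agent.PT

/-- The statement of `F.flat_funContract`. -/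
def FFunStatement : Prop :=
  ∀ (P : Local.Plc), P.ℓ ≠ 2 → ∀ (k : Type) [Field k] [Finite k] [CharP k P.ℓ]
    (r : G →* GL (Fin 2) k), RSmooth r → F.DetOmega P.ℓ r → F.Split r →
      FunContract r P.dec 1 (F.PrFlat P.ℓ r)

theorem detOmega_of_detCyc {k : Type} [Field k] (p : ℕ) [Fact p.Prime] [Algebra (ZMod p) k]
    {r : G →* GL (Fin 2) k} (h : DetCyc p r) : F.DetOmega p r := by
  intro σ a ha
  have h1 := h σ
  rw [Matrix.GeneralLinearGroup.val_det_apply] at h1
  rw [rm, h1, cycloChar_eq_of_actsBy ha, map_natCast]

theorem flatContract_of_fun (p : ℕ) [Fact p.Prime] (hp2 : p ≠ 2) (hF : FFunStatement) :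
    FlatContract p := by
  intro k _ _ _ r hr hdet hs
  haveI : CharP k p := charP_of_injective_algebraMap (algebraMap (ZMod p) k).injective p
  have h := hF (Lq.plcV (pPrime p)) hp2 k r hr (detOmega_of_detCyc p hdet) hs
  exact LocalContract.of_fun p h

end Fermat.Agent.S56.B
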