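/-
S56: TOP LEVEL ASSEMBLY.  The frozen statement S56 from the contracts of the blocks (GW), (Lq), (F)
(`B/Contracts.lean`, `GW/Local.lean`), using the blocks (C), (T), (B).
-/
import Fermat.Agent.S56.B.Main
import Fermat.Agent.S56.C.Main
import Fermat.Agent.S56.C.UnipRes

set_option autoImplicit false

open Polynomial IsLocalRing
open ResidualGaloisRep ExtCitation

noncomputable section

namespace Fermat.Agent.S56.B

open Fermat.Agent.S53 (G M2)
open Fermat.Agent.S56.C (ad rm IsCoc IsCob liftMat)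
open Fermat.Agent.PT

theorem result_of_contracts
    {𝒪 : Type} [CommRing 𝒪] [IsDomain 𝒪] [IsDiscreteValuationRing 𝒪]
    [IsAdicComplete (maximalIdeal 𝒪) 𝒪] [Finite (ResidueField 𝒪)]
    (p : ℕ) [Fact p.Prime] (hp2 : p ≠ 2) (hp𝒪 : (p : 𝒪) ∈ maximalIdeal 𝒪)
    (ρbar : ResidualGaloisRep (ResidueField 𝒪))
    (habs : ρbar.IsAbsolutelyIrreducible)
    (hdet : (GaloisRepAdic.ofResidualGaloisRep ρbar).DetIsCyclotomic p)
    (hsplit : ∀ σ : AlgebraicClosure ℚ ≃ₐ[ℚ] AlgebraicClosure ℚ,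
      ∃ α β : ResidueField 𝒪, LinearMap.charpoly (ρbar.ρ σ) = (X - C α) * (X - C β))
    (hTW : ∀ (K : Type) [Field K] [Algebra (ResidueField 𝒪) K]
      (G : Subgroup (AlgebraicClosure ℚ ≃ₐ[ℚ] AlgebraicClosure ℚ)), G.index = 2 →
      ∀ V : Submodule K (ρbar.baseChange K).V,
        (∀ σ ∈ G, ∀ x ∈ V, (ρbar.baseChange K).ρ σ x ∈ V) → V = ⊥ ∨ V = ⊤)
    (S Smin : Finset ℕ) (hpSmin : p ∈ Smin) (hSmin : Smin ⊆ S)
    (hmin : ∀ q : ℕ, q.Prime → q ≠ p → (q ∈ Smin ↔ ¬ ρbar.IsUnramifiedAt q))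
    (hGW : GWMainStatement p) (hUr : GW.UrBoundStatement p) (hTame : GW.TameBoundStatement p)
    (hUnip : UnipContract p) (hSO : SOContract p) (hFl : FlatContract p) :
    (∃ r : ℕ, ∀ n : ℕ, ∃ qv : Fin r → ℕ, Function.Injective qv ∧
      (∀ i, (qv i).Prime ∧ qv i ∉ S ∧ p ^ (n + 1) ∣ qv i - 1) ∧
      (∀ i, ∀ P : ValuationSubring (AlgebraicClosure ℚ), P.LiesOverPrime (qv i) →
        ∀ φ : AlgebraicClosure ℚ ≃ₐ[ℚ] AlgebraicClosure ℚ, P.IsFrobeniusAt φ (qv i) →
          ∃ α β : ResidueField 𝒪, α ≠ β ∧ LinearMap.charpoly (ρbar.ρ φ) = (X - C α) * (X - C β)) ∧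
      ∀ DQ : GaloisRep.DeformationRingData 𝒪 ρbar (fun _A _ _ _ ρ =>
          GaloisRep.strictOrdinaryCondition 𝒪 p (Smin ∪ Finset.univ.image qv) ρ ∧
            ∀ q ∈ Smin, q.Prime → q ≠ p → ρ.IsUnipotentOnInertiaAt q),
        ∃ γ : MvPowerSeries (Fin r) 𝒪 →ₐ[𝒪] DQ.R, Function.Surjective γ) ∧
    (∃ r : ℕ, ∀ n : ℕ, ∃ qv : Fin r → ℕ, Function.Injective qv ∧
      (∀ i, (qv i).Prime ∧ qv i ∉ S ∧ p ^ (n + 1) ∣ qv i - 1) ∧
      (∀ i, ∀ P : ValuationSubring (AlgebraicClosure ℚ), P.LiesOverPrime (qv i) →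
        ∀ φ : AlgebraicClosure ℚ ≃ₐ[ℚ] AlgebraicClosure ℚ, P.IsFrobeniusAt φ (qv i) →
          ∃ α β : ResidueField 𝒪, α ≠ β ∧ LinearMap.charpoly (ρbar.ρ φ) = (X - C α) * (X - C β)) ∧
      ∀ DQ : GaloisRep.DeformationRingData 𝒪 ρbar (fun _A _ _ _ ρ =>
          GaloisRep.flatCondition 𝒪 p (Smin ∪ Finset.univ.image qv) ρ ∧
            ∀ q ∈ Smin, q.Prime → q ≠ p → ρ.IsUnipotentOnInertiaAt q),
        ∃ γ : MvPowerSeries (Fin r) 𝒪 →ₐ[𝒪] DQ.R, Function.Surjective γ) := by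
  classical
  have hpp : p.Prime := Fact.out
  haveI : CharP (ResidueField 𝒪) p := T.charP_of_det hdet
  letI : Algebra (ZMod p) (ResidueField 𝒪) := ZMod.algebra (ResidueField 𝒪) p
  set r := T.matRep ρbar with hrdef
  have hr : Fermat.Agent.S53.HasMatrixRes ρbar (rm r) := hasMatrixRes_matRep ρbar
  have hrs : RSmooth r := rSmooth_matRep ρbar
  have hdc : DetCyc p r := detCyc_matRep ρbar p hdet
  by_cases hunip : ∀ q ∈ Smin, q.Prime → q ≠ p → ∀ P : ValuationSubring (AlgebraicClosure ℚ),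
      P.LiesOverPrime q → ∀ σ ∈ P.inertiaSubgroupIn ℚ, (rm r σ).trace = 2 ∧ (rm r σ).det = 1
  · -- the main case
    have hU : ∀ v : Nat.Primes, (v : ℕ) ∈ Smin → (v : ℕ) ≠ p →
        LocalContract p r v 0 (fun c => IsCoc r c ∧ C.Smooth c ∧ C.TraceZero c ∧ C.UnipAt r c v) :=
      fun v hv hvp => hUnip _ r hrs v hvp
        (fun h => (hmin v v.2 hvp).1 hv ((rUnramAt_matRep_iff ρbar v).1 h)) (hunip v hv v.2 hvp)
    constructor
    · obtain ⟨n₀, h⟩ := tw_contract p hp2 hGW hUr hTame ρbar habs hdet hsplit hTW S Smin hpSmin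
        hSmin hmin
        (fun v c => IsCoc r c ∧ C.Smooth c ∧ C.TraceZero c ∧
          (if (v : ℕ) = p then C.SOAt r c p else C.UnipAt r c v))
        (by
          intro v hv
          by_cases hvp : (v : ℕ) = p
          · have hv' : v = pPrime p := Subtype.ext hvp
            subst hv'
            simp only [pPrime_coe, if_true]
            exact hSO _ r hrs hdc
          · simp only [if_neg hvp]
            exact hU v hv hvp)
      refine ⟨n₀, fun n => ?_⟩
      obtain ⟨qv, hinj, h1, h2, T₁, hT, hT0, hTc⟩ := h n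
      refine ⟨qv, hinj, h1, h2, fun DQ => ?_⟩
      refine C.exists_surjective_of_selBoundSO hpp hp2 hp𝒪 (Smin ∪ Finset.univ.image qv) Smin r hr
        n₀ ⟨T₁, hT, hT0, fun c hc => ?_⟩ DQ
      refine hTc c hc.coc hc.smooth hc.tr0 hc.unram fun v hv => ⟨hc.coc, hc.smooth, hc.tr0, ?_⟩
      by_cases hvp : (v : ℕ) = p
      · simp only [if_pos hvp]
        exact hc.atp
      · simp only [if_neg hvp]
        exact hc.unip v hv v.2 hvp
    · obtain ⟨n₀, h⟩ := tw_contract p hp2 hGW hUr hTame ρbar habs hdet hsplit hTW S Smin hpSmin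
        hSmin hmin
        (fun v c => IsCoc r c ∧ C.Smooth c ∧ C.TraceZero c ∧
          (if (v : ℕ) = p then C.FlatAt r c p else C.UnipAt r c v))
        (by
          intro v hv
          by_cases hvp : (v : ℕ) = p
          · have hv' : v = pPrime p := Subtype.ext hvp
            subst hv'
            simp only [pPrime_coe, if_true]
            exact hFl _ r hrs hdc (T.split_matRep ρbar hsplit)
          · simp only [if_neg hvp]
            exact hU v hv hvp)
      refine ⟨n₀, fun n => ?_⟩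
      obtain ⟨qv, hinj, h1, h2, T₁, hT, hT0, hTc⟩ := h n
      refine ⟨qv, hinj, h1, h2, fun DQ => ?_⟩
      refine C.exists_surjective_of_selBoundFl hpp hp𝒪 (Smin ∪ Finset.univ.image qv) Smin r hr
        n₀ ⟨T₁, hT, hT0, fun c hc => ?_⟩ DQ
      refine hTc c hc.coc hc.smooth hc.tr0 hc.unram fun v hv => ⟨hc.coc, hc.smooth, hc.tr0, ?_⟩
      by_cases hvp : (v : ℕ) = p
      · simp only [if_pos hvp]
        exact hc.atp
      · simp only [if_neg hvp]
        exact hc.unip v hv v.2 hvp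
  · -- no deformation ring datum exists
    constructor
    · refine ⟨0, fun n => ⟨fun i => i.elim0, fun i => i.elim0, fun i => i.elim0, fun i => i.elim0,
        fun DQ => ?_⟩⟩
      exact absurd (C.unip_of_DQ_SO p _ Smin DQ r hr) hunip
    · refine ⟨0, fun n => ⟨fun i => i.elim0, fun i => i.elim0, fun i => i.elim0, fun i => i.elim0,
        fun DQ => ?_⟩⟩
      exact absurd (C.unip_of_DQ_Fl p _ Smin DQ r hr) hunip

end Fermat.Agent.S56.B
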